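import Fermat.Agent.FF.GenLocal

set_option autoImplicit false

/-!
# Characters of affine coordinate rings of function fields are places

`regAlg k x` is the ring of functions regular wherever `x` is regular; it is the integral closure
of `k[x]` and its characters are evaluations at places where `x` is finite.
-/

noncomputable section

open AlgebraicCurve IsDedekindDomain Fermat.FF IntermediateField

namespace Fermat.Agent.DR.Nodes

variable {k F : Type*} [Field k] [Field F] [Algebra k F]

/-- The value of `f` at `P` is `c`. -/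
def Val (P : Place k F) (f : F) (c : k) : Prop := P.adicValuation (f - algebraMap k F c) < 1

theorem val_iff {P : Place k F} {f : F} {c : k} :
    Val P f c ↔ f = algebraMap k F c ∨ 0 < P.ord (f - algebraMap k F c) := by
  unfold Val
  rw [Fermat.FF.val_lt_one_iff, sub_eq_zero]

theorem adicValuation_algebraMap_eq_one (P : Place k F) {c : k} (hc : c ≠ 0) :
    P.adicValuation (algebraMap k F c) = 1 := by
  have h0 : algebraMap k F c ≠ 0 := by
    simpa using hc
  rw [← Fermat.FF.ord_eq_zero_iff_val P h0]
  exact Fermat.FF.ord_algebraMap P c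

namespace Val

variable {P : Place k F}

theorem const (c : k) : Val P (algebraMap k F c) c := by
  unfold Val
  rw [sub_self, map_zero]
  exact zero_lt_one

theorem mem {f : F} {c : k} (h : Val P f c) : f ∈ P.toValuationSubring := by
  have h1 : f - algebraMap k F c ∈ P.toValuationSubring :=
    (Fermat.FF.mem_iff_val_le_one P _).mpr (le_of_lt h)
  have h2 := add_mem h1 (P.algebraMap_mem' c)
  rwa [sub_add_cancel] at h2

theorem add {f g : F} {c d : k} (h : Val P f c) (h' : Val P g d) : Val P (f + g) (c + d) := by
  unfold Val at *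
  rw [map_add, add_sub_add_comm]
  exact Valuation.map_add_lt _ h h'

theorem neg {f : F} {c : k} (h : Val P f c) : Val P (-f) (-c) := by
  unfold Val at *
  rw [map_neg, ← neg_sub', Valuation.map_neg]
  exact h

theorem sub {f g : F} {c d : k} (h : Val P f c) (h' : Val P g d) : Val P (f - g) (c - d) := by
  rw [sub_eq_add_neg, sub_eq_add_neg]
  exact h.add h'.neg

theorem mul {f g : F} {c d : k} (h : Val P f c) (h' : Val P g d) : Val P (f * g) (c * d) := by
  have hg := (Fermat.FF.mem_iff_val_le_one P _).mp h'.mem
  have hc := P.adicValuation_algebraMap_le_one c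
  unfold Val at *
  have e : f * g - algebraMap k F (c * d) =
      (f - algebraMap k F c) * g + algebraMap k F c * (g - algebraMap k F d) := by
    rw [map_mul]; ring
  rw [e]
  refine Valuation.map_add_lt _ ?_ ?_
  · rw [map_mul]
    exact lt_of_le_of_lt (mul_le_of_le_one_right' hg) h
  · rw [map_mul]
    exact lt_of_le_of_lt (mul_le_of_le_one_left' hc) h'

theorem unique {f : F} {c d : k} (h : Val P f c) (h' : Val P f d) : c = d := by
  by_contra hne
  have h1 := h.sub h'
  unfold Val at h1
  rw [sub_self, zero_sub, Valuation.map_neg,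
    adicValuation_algebraMap_eq_one P (sub_ne_zero.mpr hne)] at h1
  exact lt_irrefl _ h1

theorem pow {f : F} {c : k} (h : Val P f c) (n : ℕ) : Val P (f ^ n) (c ^ n) := by
  induction n with
  | zero => simpa using Val.const (P := P) (1 : k)
  | succ n ih => rw [pow_succ, pow_succ]; exact ih.mul h

end Val

/-- The ring of functions regular wherever `x` is regular. -/
def regAlg (k : Type*) {F : Type*} [Field k] [Field F] [Algebra k F] (x : F) : Subalgebra k F where
  carrier := {f | ∀ P : Place k F, x ∈ P.toValuationSubring → f ∈ P.toValuationSubring}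
  mul_mem' := fun ha hb P hP => mul_mem (ha P hP) (hb P hP)
  add_mem' := fun ha hb P hP => add_mem (ha P hP) (hb P hP)
  algebraMap_mem' := fun a P _ => P.algebraMap_mem' a

theorem mem_regAlg {x f : F} : f ∈ regAlg k x ↔
    ∀ P : Place k F, x ∈ P.toValuationSubring → f ∈ P.toValuationSubring := Iff.rfl

theorem self_mem_regAlg (x : F) : x ∈ regAlg k x := fun _ h => h

section Integral

open IntermediateField.algebraAdjoinAdjoin

variable {x : F}

theorem adjoin_le_place {P : Place k F} (hx : x ∈ P.toValuationSubring)
    (r : Algebra.adjoin k {x}) : algebraMap (Algebra.adjoin k {x}) F r ∈ P.toValuationSubring := by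
  obtain ⟨r, hr⟩ := r
  show r ∈ P.toValuationSubring
  induction hr using Algebra.adjoin_induction with
  | mem y hy => rw [Set.mem_singleton_iff.mp hy]; exact hx
  | algebraMap c => exact P.algebraMap_mem' c
  | add y z _ _ hy hz => exact add_mem hy hz
  | mul y z _ _ hy hz => exact mul_mem hy hz

theorem mem_regAlg_of_isIntegral {f : F} (hf : IsIntegral (Algebra.adjoin k {x}) f) :
    f ∈ regAlg k x := by
  intro P hP
  exact integralClosure_le_of_le (v := P) (adjoin_le_place hP) ⟨f, hf⟩

/-- the Dedekind structure on the integral closure. -/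
theorem isDedekindDomain_intClosure (hx : Transcendental k x) [FiniteDimensional k⟮x⟯ F] :
    IsDedekindDomain (integralClosure (Algebra.adjoin k {x}) F) := by
  have h1 : IsPrincipalIdealRing (Algebra.adjoin k {x}) := adjoin_isPrincipalIdealRing hx
  have h2 : Module.Finite (Algebra.adjoin k {x}) (integralClosure (Algebra.adjoin k {x}) F) :=
    Fermat.FF.Gen.finite_integralClosure_adjoin hx F
  exact Fermat.FF.Gen.isDedekindDomain_integralClosure (Algebra.adjoin k {x}) k⟮x⟯ F

theorem isFractionRing_intClosure [FiniteDimensional k⟮x⟯ F] :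
    IsFractionRing (integralClosure (Algebra.adjoin k {x}) F) F :=
  integralClosure.isFractionRing_of_finite_extension k⟮x⟯ F

theorem isIntegral_of_mem_regAlg (hx : Transcendental k x) [FiniteDimensional k⟮x⟯ F] {f : F}
    (hf : f ∈ regAlg k x) : IsIntegral (Algebra.adjoin k {x}) f := by
  have h1 := isDedekindDomain_intClosure (k := k) (F := F) hx
  have h2 := isFractionRing_intClosure (k := k) (F := F) (x := x)
  have h3 : f ∈ (algebraMap (integralClosure (Algebra.adjoin k {x}) F) F).range := by
    apply HeightOneSpectrum.mem_integers_of_valuation_le_one F f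
    intro v
    have h4 := hf (Place.ofHeightOneSpectrum (K := k) v) (by
      rw [Place.ofHeightOneSpectrum_toValuationSubring, Valuation.mem_valuationSubring_iff]
      exact v.valuation_le_one (⟨x, isIntegral_algebraMap
        (x := (⟨x, Algebra.self_mem_adjoin_singleton k x⟩ : Algebra.adjoin k {x}))⟩ :
          integralClosure (Algebra.adjoin k {x}) F))
    rwa [Place.ofHeightOneSpectrum_toValuationSubring, Valuation.mem_valuationSubring_iff] at h4
  obtain ⟨y, rfl⟩ := h3
  exact y.2

theorem mem_regAlg_iff_isIntegral (hx : Transcendental k x) [FiniteDimensional k⟮x⟯ F] {f : F} :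
    f ∈ regAlg k x ↔ IsIntegral (Algebra.adjoin k {x}) f :=
  ⟨isIntegral_of_mem_regAlg hx, mem_regAlg_of_isIntegral⟩

/-- Characters of `regAlg k x` are evaluations at places. -/
theorem exists_place_of_character (hx : Transcendental k x) [FiniteDimensional k⟮x⟯ F]
    (χ : regAlg k x →ₐ[k] k) :
    ∃ P : Place k F, x ∈ P.toValuationSubring ∧ ∀ f : regAlg k x, Val P (f : F) (χ f) := by
  have h1 := isDedekindDomain_intClosure (k := k) (F := F) hx
  have h2 := isFractionRing_intClosure (k := k) (F := F) (x := x)
  set R := integralClosure (Algebra.adjoin k {x}) F with hR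
  let ι : R →+* regAlg k x :=
    { toFun := fun r => ⟨(r : F), mem_regAlg_of_isIntegral r.2⟩
      map_one' := rfl
      map_zero' := rfl
      map_add' := fun _ _ => rfl
      map_mul' := fun _ _ => rfl }
  have hxR : ∀ c : k, IsIntegral (Algebra.adjoin k {x}) (algebraMap k F c) := fun c =>
    isIntegral_algebraMap (x := algebraMap k (Algebra.adjoin k {x}) c)
  have hcι : ∀ c : k, ι ⟨algebraMap k F c, hxR c⟩ = algebraMap k (regAlg k x) c := fun c => rfl
  let φ : R →+* k := (χ : regAlg k x →+* k).comp ι
  have hφ : ∀ c : k, φ ⟨algebraMap k F c, hxR c⟩ = c := fun c => by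
    show χ (ι _) = c
    rw [hcι]
    exact χ.commutes c
  have hmax : (RingHom.ker φ).IsMaximal := RingHom.ker_isMaximal_of_surjective φ fun c => ⟨_, hφ c⟩
  -- the kernel is not zero
  have hxint : IsIntegral (Algebra.adjoin k {x}) x :=
    isIntegral_algebraMap (x := (⟨x, Algebra.self_mem_adjoin_singleton k x⟩ : Algebra.adjoin k {x}))
  have hker : ∀ r : R, r - ⟨algebraMap k F (φ r), hxR _⟩ ∈ RingHom.ker φ := fun r => by
    rw [RingHom.mem_ker, map_sub, hφ, sub_self]
  have hne : RingHom.ker φ ≠ ⊥ := by
    intro h0
    have h3 := hker ⟨x, hxint⟩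
    rw [h0, Ideal.mem_bot] at h3
    have h4 : x - algebraMap k F (φ ⟨x, hxint⟩) = 0 := congrArg Subtype.val h3
    rw [sub_eq_zero] at h4
    apply hx
    rw [h4]
    exact isAlgebraic_algebraMap _
  let v : HeightOneSpectrum R := ⟨RingHom.ker φ, hmax.isPrime, hne⟩
  refine ⟨Place.ofHeightOneSpectrum (K := k) v, ?_, ?_⟩
  · rw [Place.ofHeightOneSpectrum_toValuationSubring, Valuation.mem_valuationSubring_iff]
    exact v.valuation_le_one (⟨x, hxint⟩ : R)
  · rintro ⟨f, hf⟩
    have hfi := isIntegral_of_mem_regAlg hx hf
    have h5 := (val_ofHeightOneSpectrum_lt_one_iff (K := k) (F := F) v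
      (r := (⟨f, hfi⟩ : R) - ⟨algebraMap k F (φ ⟨f, hfi⟩), hxR _⟩)).mpr (hker ⟨f, hfi⟩)
    exact h5

end Integral

end Fermat.Agent.DR.Nodes
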