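import Mathlib

set_option autoImplicit false

/-!
# Finite algebras generated by Frobenius-fixed elements

If `A` is a finite commutative algebra over an algebraically closed field `k` of characteristic
`p`, generated by elements `t` with `t ^ (p ^ r) = t` (`r > 0`), then `A` is reduced and it has
exactly `finrank k A` characters, which separate the elements of `A`.
-/

noncomputable section

namespace Fermat.Agent.DR.Nodes

section Reduced

variable {k A : Type*} [Field k] [CommRing A] [Algebra k A]

theorem isReduced_of_adjoin (p r : ℕ) [Fact p.Prime] [CharP k p] (hr : 0 < r) (T : Set A)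
    (hT : Algebra.adjoin k T = ⊤) (h : ∀ t ∈ T, t ^ p ^ r = t) : IsReduced A := by
  classical
  rcases subsingleton_or_nontrivial A with hA | hA
  · exact ⟨fun x _ => Subsingleton.elim _ _⟩
  have hp : CharP A p := charP_of_injective_algebraMap (algebraMap k A).injective p
  have hE : ExpChar A p := ExpChar.prime Fact.out
  have hEk : ExpChar k p := ExpChar.prime Fact.out
  -- the monoid generated by `T` consists of fixed elements
  have hmon : ∀ a ∈ Submonoid.closure T, a ^ p ^ r = a := by
    intro a ha
    induction ha using Submonoid.closure_induction with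
    | mem x hx => exact h x hx
    | one => exact one_pow _
    | mul x y _ _ hx hy => rw [mul_pow, hx, hy]
  have hspan : Submodule.span k (Submonoid.closure T : Set A) = ⊤ := by
    rw [← Algebra.adjoin_eq_span, hT, Algebra.top_toSubmodule]
  obtain ⟨b, hb, hbs, hbli⟩ := exists_linearIndependent k (Submonoid.closure T : Set A)
  rw [hspan] at hbs
  refine ⟨fun x hx => ?_⟩
  obtain ⟨n, hn⟩ := hx
  have hxs : x ∈ Submodule.span k b := by rw [hbs]; trivial
  rw [Finsupp.mem_span_iff_linearCombination] at hxs
  obtain ⟨c, rfl⟩ := hxs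
  -- fixed by iterates
  have hfix : ∀ (m : ℕ) (a : A), a ∈ b → a ^ p ^ (r * m) = a := by
    intro m a ha
    induction m with
    | zero => simp
    | succ m ih =>
      rw [Nat.mul_succ, pow_add, pow_mul, ih]
      exact hmon a (hb ha)
  have hpow : ∀ m : ℕ, (Finsupp.linearCombination k (Subtype.val : b → A) c) ^ p ^ (r * m) =
      ∑ a ∈ c.support, (c a ^ p ^ (r * m)) • (a : A) := by
    intro m
    rw [Finsupp.linearCombination_apply, Finsupp.sum, sum_pow_char_pow]
    refine Finset.sum_congr rfl fun a _ => ?_
    rw [smul_pow, hfix m a a.2]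
  -- choose `m` large
  have hle : n ≤ p ^ (r * n) := by
    have h1 : n < p ^ n := Nat.lt_pow_self (Nat.Prime.one_lt Fact.out)
    have h2 : p ^ n ≤ p ^ (r * n) := Nat.pow_le_pow_right (Nat.Prime.pos Fact.out)
      (Nat.le_mul_of_pos_left n hr)
    omega
  have h0 : (Finsupp.linearCombination k (Subtype.val : b → A) c) ^ p ^ (r * n) = 0 :=
    pow_eq_zero_of_le hle hn
  rw [hpow n] at h0
  have h1 := linearIndependent_iff'.mp hbli c.support (fun a => c a ^ p ^ (r * n)) h0
  have h2 : c = 0 := by
    ext a
    by_cases ha : a ∈ c.support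
    · have h3 := h1 a ha
      rw [Finsupp.coe_zero, Pi.zero_apply]
      exact eq_zero_of_pow_eq_zero h3
    · simpa using ha
  rw [h2, map_zero]

end Reduced

section Characters

variable {k A : Type*} [Field k] [IsAlgClosed k] [CommRing A] [Algebra k A] [Module.Finite k A]

/-- A maximal ideal of a finite algebra over an algebraically closed field has residue field `k`.
-/
theorem bijective_algebraMap_quotient (m : Ideal A) [m.IsMaximal] :
    Function.Bijective (algebraMap k (A ⧸ m)) := by
  let _ : Field (A ⧸ m) := Ideal.Quotient.field m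
  have : Algebra.IsIntegral k (A ⧸ m) := inferInstance
  exact IsAlgClosed.algebraMap_bijective_of_isIntegral

/-- `k ≃ A / m`. -/
def quotEquiv (m : Ideal A) [m.IsMaximal] : k ≃ₐ[k] (A ⧸ m) :=
  AlgEquiv.ofBijective (Algebra.ofId k (A ⧸ m)) (by
    have h := bijective_algebraMap_quotient (k := k) m
    exact h)

/-- The character of a maximal ideal. -/
def charOf (m : Ideal A) [m.IsMaximal] : A →ₐ[k] k :=
  (quotEquiv (k := k) m).symm.toAlgHom.comp (Ideal.Quotient.mkₐ k m)

theorem charOf_apply (m : Ideal A) [m.IsMaximal] (a : A) :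
    charOf (k := k) m a = (quotEquiv (k := k) m).symm (Ideal.Quotient.mk m a) := rfl

theorem ker_charOf (m : Ideal A) [m.IsMaximal] : RingHom.ker (charOf (k := k) m) = m := by
  ext a
  rw [RingHom.mem_ker, charOf_apply, map_eq_zero_iff _ (quotEquiv (k := k) m).symm.injective,
    Ideal.Quotient.eq_zero_iff_mem]

/-- Characters correspond to maximal ideals. -/
def charEquiv : (A →ₐ[k] k) ≃ MaximalSpectrum A where
  toFun χ := ⟨RingHom.ker χ, RingHom.ker_isMaximal_of_surjective χ fun c =>
    ⟨algebraMap k A c, by simp⟩⟩
  invFun m := haveI := m.isMaximal; charOf m.asIdeal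
  left_inv χ := by
    have hm : (RingHom.ker χ).IsMaximal := RingHom.ker_isMaximal_of_surjective χ fun c =>
      ⟨algebraMap k A c, by simp⟩
    refine AlgHom.ext fun a => ?_
    have h1 : a - algebraMap k A (χ a) ∈ RingHom.ker χ := by
      rw [RingHom.mem_ker, map_sub, AlgHom.commutes]
      simp
    rw [← ker_charOf (k := k) (RingHom.ker χ), RingHom.mem_ker, map_sub, AlgHom.commutes,
      sub_eq_zero] at h1
    exact h1
  right_inv m := by
    have := m.isMaximal
    ext1
    exact ker_charOf m.asIdeal

theorem finite_algHom : Finite (A →ₐ[k] k) := by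
  have : IsArtinianRing A := IsArtinianRing.of_finite k A
  exact Finite.of_equiv _ (charEquiv (k := k) (A := A)).symm

theorem natCard_algHom [IsReduced A] : Nat.card (A →ₐ[k] k) = Module.finrank k A := by
  have hA : IsArtinianRing A := IsArtinianRing.of_finite k A
  rw [Nat.card_congr (charEquiv (k := k) (A := A))]
  have e : A ≃ₗ[k] ∀ I : MaximalSpectrum A, A ⧸ I.asIdeal :=
    (IsArtinianRing.equivPi A).toLinearEquiv.restrictScalars k
  have : Fintype (MaximalSpectrum A) := Fintype.ofFinite _
  rw [e.finrank_eq, Module.finrank_pi_fintype, Nat.card_eq_fintype_card]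
  have h1 : ∀ I : MaximalSpectrum A, Module.finrank k (A ⧸ I.asIdeal) = 1 := by
    intro I
    have := I.isMaximal
    have e2 : k ≃ₗ[k] (A ⧸ I.asIdeal) := (quotEquiv (k := k) I.asIdeal).toLinearEquiv
    rw [← e2.finrank_eq, Module.finrank_self]
  simp [h1]

theorem eq_zero_of_forall_algHom [IsReduced A] {a : A} (h : ∀ χ : A →ₐ[k] k, χ a = 0) :
    a = 0 := by
  have hA : IsArtinianRing A := IsArtinianRing.of_finite k A
  have h1 : a ∈ nilradical A := by
    rw [IsArtinianRing.nilradical_eq_iInf, Ideal.mem_iInf]
    intro m
    have := m.isMaximal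
    have h2 := h (charOf m.asIdeal)
    rwa [← RingHom.mem_ker, ker_charOf] at h2
  rw [nilradical_eq_zero] at h1
  exact h1

end Characters

end Fermat.Agent.DR.Nodes
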