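import Fermat.Agent.DR.Nodes.Lead
import Fermat.Agent.DR.Nodes.RegAlg
import Fermat.Agent.DR.Nodes.FiniteAlg

set_option autoImplicit false

/-!
# Nodes of a degenerate curve: the abstract input

`F₁`, `F₂` function fields over an algebraically closed field `k`, `x₁`, `x₂` nonconstant
functions with polar divisors `E₁`, `E₂`.  A `NodeDatum` is a filtered algebra
`V n ⊆ L(nE₁) × L(nE₂)` with Hilbert function `n (deg E₁ + deg E₂) + 1 - g`, surjecting onto the
affine coordinate rings `regAlg k x₁`, `regAlg k x₂`, and "everything at infinity".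
-/

noncomputable section

open AlgebraicCurve Fermat.Agent.RR IntermediateField

namespace Fermat.Agent.DR.Nodes

section Defs

variable {k F₁ F₂ : Type*} [Field k] [Field F₁] [Field F₂] [Algebra k F₁] [Algebra k F₂]
  [FunctionField k F₁] [FunctionField k F₂]

/-- `L(nE₁) × L(nE₂)`. -/
def WW (k : Type*) {F₁ F₂ : Type*} [Field k] [Field F₁] [Field F₂] [Algebra k F₁] [Algebra k F₂]
    [FunctionField k F₁] [FunctionField k F₂] (x₁ : F₁) (x₂ : F₂) (n : ℕ) :
    Submodule k (F₁ × F₂) :=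
  (riemannRochSpace (n • polesOf (K := k) x₁)).prod (riemannRochSpace (n • polesOf (K := k) x₂))

/-- The abstract input for the determination of the nodes. -/
structure NodeDatum (k : Type*) {F₁ F₂ : Type*} [Field k] [Field F₁] [Field F₂] [Algebra k F₁]
    [Algebra k F₂] [FunctionField k F₁] [FunctionField k F₂] (x₁ : F₁) (x₂ : F₂) (g : ℕ) where
  /-- the filtered algebra -/
  V : ℕ → Submodule k (F₁ × F₂)
  le : ∀ n, V n ≤ WW k x₁ x₂ n
  mono : ∀ n, V n ≤ V (n + 1)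
  one : ((1 : F₁), (1 : F₂)) ∈ V 0
  mul : ∀ {m n : ℕ} {v w : F₁ × F₂}, v ∈ V m → w ∈ V n → v * w ∈ V (m + n)
  /-- the Hilbert function -/
  finrank : ∃ n₀ : ℕ, ∀ n ≥ n₀, (Module.finrank k (V n) : ℤ) =
    n * (Divisor.degree (polesOf (K := k) x₁) + Divisor.degree (polesOf (K := k) x₂)) + 1 - g
  /-- the affine rings are quotients -/
  surj₁ : ∀ a ∈ regAlg k x₁, ∃ (n : ℕ) (b : F₂), (a, b) ∈ V n
  surj₂ : ∀ b ∈ regAlg k x₂, ∃ (n : ℕ) (a : F₁), (a, b) ∈ V n
  /-- everything at infinity on the first component -/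
  inf₁ : ∃ (N : ℕ) (π : F₁), 0 < N ∧ (π, (0 : F₂)) ∈ V N ∧
    (∀ P : Place k F₁, P.ord x₁ < 0 → P.ord π = N * P.ord x₁) ∧
    ∃ m₀ : ℕ, ∀ m ≥ m₀, ∃ a : ℕ, ∀ w ∈ riemannRochSpace (m • polesOf (K := k) x₁),
      (w * π ^ a, (0 : F₂)) ∈ V (m + a * N)
  /-- everything at infinity on the second component -/
  inf₂ : ∃ (N : ℕ) (π : F₂), 0 < N ∧ ((0 : F₁), π) ∈ V N ∧
    (∀ P : Place k F₂, P.ord x₂ < 0 → P.ord π = N * P.ord x₂) ∧
    ∃ m₀ : ℕ, ∀ m ≥ m₀, ∃ a : ℕ, ∀ w ∈ riemannRochSpace (m • polesOf (K := k) x₂),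
      ((0 : F₁), w * π ^ a) ∈ V (m + a * N)

end Defs

section Poles

variable {k F : Type*} [Field k] [Field F] [Algebra k F] [FunctionField k F]

theorem polesOf_ne_zero_iff {x : F} {P : Place k F} :
    polesOf (K := k) x P ≠ 0 ↔ P.ord x < 0 := by
  rw [polesOf_apply]
  rcases lt_or_ge (P.ord x) 0 with h | h
  · rw [max_eq_left (by omega)]
    constructor
    · exact fun _ => h
    · intro _; omega
  · rw [max_eq_right (by omega)]
    constructor
    · intro h'; exact absurd rfl h'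
    · intro h'; omega

theorem polesOf_of_neg {x : F} {P : Place k F} (h : P.ord x < 0) :
    polesOf (K := k) x P = -P.ord x := by
  rw [polesOf_apply, max_eq_left (by omega)]

theorem polesOf_of_nonneg {x : F} {P : Place k F} (h : 0 ≤ P.ord x) :
    polesOf (K := k) x P = 0 := by
  rw [polesOf_apply, max_eq_right (by omega)]

theorem mem_regAlg_of_mem {x : F} {n : ℕ} {f : F}
    (hf : f ∈ riemannRochSpace (n • polesOf (K := k) x)) : f ∈ regAlg k x := by
  intro P hP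
  rcases eq_or_ne f 0 with rfl | hf0
  · exact zero_mem _
  have h1 := (mem_nsmul_iff hf0).mp hf P
  rw [polesOf_of_nonneg (Fermat.FF.ord_nonneg_of_mem P hP)] at h1
  exact (Fermat.FF.mem_iff_ord P hf0).mpr (by linarith)

theorem exists_mem_of_mem_regAlg {x : F} {f : F} (hf : f ∈ regAlg k x) :
    ∃ n : ℕ, f ∈ riemannRochSpace (n • polesOf (K := k) x) := by
  classical
  rcases eq_or_ne f 0 with rfl | hf0
  · exact ⟨0, zero_mem _⟩
  refine ⟨(divOf (K := k) f).support.sup fun P => (P.ord f).natAbs, ?_⟩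
  rw [mem_nsmul_iff hf0]
  intro P
  rcases lt_or_ge (P.ord x) 0 with h | h
  · rw [polesOf_of_neg h]
    by_cases hP : P.ord f = 0
    · rw [hP]
      have : (0 : ℤ) ≤ (((divOf (K := k) f).support.sup fun P => (P.ord f).natAbs : ℕ) : ℤ) :=
        Int.natCast_nonneg _
      nlinarith
    · have hP' : P ∈ (divOf (K := k) f).support := by
        rw [Finsupp.mem_support_iff, divOf_apply]; exact hP
      have h1 : (P.ord f).natAbs ≤ (divOf (K := k) f).support.sup fun P => (P.ord f).natAbs :=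
        Finset.le_sup (f := fun P : Place k F => (P.ord f).natAbs) hP'
      have h2 : ((P.ord f).natAbs : ℤ) ≤
          (((divOf (K := k) f).support.sup fun P => (P.ord f).natAbs : ℕ) : ℤ) := by
        exact_mod_cast h1
      have h3 : -((P.ord f).natAbs : ℤ) ≤ P.ord f := by omega
      nlinarith
  · rw [polesOf_of_nonneg h, mul_zero, neg_zero]
    by_cases hx0 : x = 0
    · subst hx0
      exact Fermat.FF.ord_nonneg_of_mem P (hf P (zero_mem _))
    · exact Fermat.FF.ord_nonneg_of_mem P (hf P ((Fermat.FF.mem_iff_ord P hx0).mpr h))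

end Poles

variable {k F₁ F₂ : Type*} [Field k] [Field F₁] [Field F₂] [Algebra k F₁] [Algebra k F₂]
  [IsAlgClosed k] [FunctionField k F₁] [FunctionField k F₂] {x₁ : F₁} {x₂ : F₂} {g : ℕ}

omit [IsAlgClosed k] in
theorem mem_WW {n : ℕ} {v : F₁ × F₂} : v ∈ WW k x₁ x₂ n ↔
    v.1 ∈ riemannRochSpace (n • polesOf (K := k) x₁) ∧
      v.2 ∈ riemannRochSpace (n • polesOf (K := k) x₂) := Submodule.mem_prod

omit [IsAlgClosed k] in
theorem nsmul_polesOf_mono {F : Type*} [Field F] [Algebra k F] [FunctionField k F] (x : F)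
    {m n : ℕ} (h : m ≤ n) : m • polesOf (K := k) x ≤ n • polesOf (K := k) x := by
  intro P
  have h1 := polesOf_nonneg (K := k) x P
  simp only [Finsupp.coe_zero, Pi.zero_apply] at h1
  simp only [Finsupp.coe_smul, Pi.smul_apply, nsmul_eq_mul]
  have h2 : (m : ℤ) ≤ n := by exact_mod_cast h
  nlinarith

omit [IsAlgClosed k] in
theorem WW_mono {m n : ℕ} (h : m ≤ n) : WW k x₁ x₂ m ≤ WW k x₁ x₂ n := fun _ hv =>
  mem_WW.mpr ⟨riemannRochSpace_mono (nsmul_polesOf_mono x₁ h) (mem_WW.mp hv).1,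
    riemannRochSpace_mono (nsmul_polesOf_mono x₂ h) (mem_WW.mp hv).2⟩

/-- `WW n` as a product. -/
def WWequiv (n : ℕ) : WW k x₁ x₂ n ≃ₗ[k]
    (riemannRochSpace (n • polesOf (K := k) x₁)) × (riemannRochSpace (n • polesOf (K := k) x₂))
    where
  toFun v := (⟨v.1.1, (mem_WW.mp v.2).1⟩, ⟨v.1.2, (mem_WW.mp v.2).2⟩)
  invFun w := ⟨(w.1.1, w.2.1), mem_WW.mpr ⟨w.1.2, w.2.2⟩⟩
  map_add' _ _ := rfl
  map_smul' _ _ := rfl
  left_inv _ := rfl
  right_inv _ := rfl

instance finite_WW (n : ℕ) : Module.Finite k (WW k x₁ x₂ n) :=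
  Module.Finite.equiv (WWequiv n).symm

theorem finrank_WW {n : ℕ}
    (h₁ : 2 * (genusFF k F₁ : ℤ) - 2 < n * Divisor.degree (polesOf (K := k) x₁))
    (h₂ : 2 * (genusFF k F₂ : ℤ) - 2 < n * Divisor.degree (polesOf (K := k) x₂)) :
    (Module.finrank k (WW k x₁ x₂ n) : ℤ) =
      n * (Divisor.degree (polesOf (K := k) x₁) + Divisor.degree (polesOf (K := k) x₂)) + 2 -
        genusFF k F₁ - genusFF k F₂ := by
  rw [(WWequiv n).finrank_eq, Module.finrank_prod]
  push_cast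
  rw [finrank_nsmul h₁, finrank_nsmul h₂]
  ring

namespace NodeDatum

variable (D : NodeDatum k x₁ x₂ g)

omit [IsAlgClosed k] in
theorem mono' {m n : ℕ} (h : m ≤ n) : D.V m ≤ D.V n := by
  induction h with
  | refl => exact le_rfl
  | step _ ih => exact ih.trans (D.mono _)

instance finite_V (n : ℕ) : Module.Finite k (D.V n) :=
  Module.Finite.of_injective (Submodule.inclusion (D.le n)) (Submodule.inclusion_injective _)

/-- The union of the `V n`. -/
def B : Subalgebra k (F₁ × F₂) where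
  carrier := {v | ∃ n, v ∈ D.V n}
  mul_mem' := by
    rintro v w ⟨m, hm⟩ ⟨n, hn⟩
    exact ⟨m + n, D.mul hm hn⟩
  add_mem' := by
    rintro v w ⟨m, hm⟩ ⟨n, hn⟩
    exact ⟨max m n, add_mem (D.mono' (le_max_left _ _) hm) (D.mono' (le_max_right _ _) hn)⟩
  algebraMap_mem' := by
    intro c
    refine ⟨0, ?_⟩
    have h := (D.V 0).smul_mem c D.one
    have e : c • ((1 : F₁), (1 : F₂)) = algebraMap k (F₁ × F₂) c := by
      rw [Algebra.algebraMap_eq_smul_one]; rfl
    rwa [e] at h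

omit [IsAlgClosed k] in
theorem mem_B {v : F₁ × F₂} : v ∈ D.B ↔ ∃ n, v ∈ D.V n := Iff.rfl

omit [IsAlgClosed k] in
theorem fst_mem {v : F₁ × F₂} (hv : v ∈ D.B) : v.1 ∈ regAlg k x₁ := by
  obtain ⟨n, hn⟩ := hv
  exact mem_regAlg_of_mem (mem_WW.mp (D.le n hn)).1

omit [IsAlgClosed k] in
theorem snd_mem {v : F₁ × F₂} (hv : v ∈ D.B) : v.2 ∈ regAlg k x₂ := by
  obtain ⟨n, hn⟩ := hv
  exact mem_regAlg_of_mem (mem_WW.mp (D.le n hn)).2

/-- Surjectivity on leading coefficients at infinity. -/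
theorem exists_lead_V (hd₁ : 0 < Divisor.degree (polesOf (K := k) x₁))
    (hd₂ : 0 < Divisor.degree (polesOf (K := k) x₂)) :
    ∃ n₀ : ℕ, ∀ n ≥ n₀, D.V (n + 1) ⊔ WW k x₁ x₂ n = WW k x₁ x₂ (n + 1) := by
  obtain ⟨N₁, π₁, hN₁, hπ₁, hord₁, m₁, hm₁⟩ := D.inf₁
  obtain ⟨N₂, π₂, hN₂, hπ₂, hord₂, m₂, hm₂⟩ := D.inf₂
  obtain ⟨n₁, hn₁⟩ := exists_lead (E := polesOf (K := k) x₁) (polesOf_nonneg x₁) hd₁
    (fun n => (D.V n).comap (LinearMap.inl k F₁ F₂))
    (by
      intro m n u v hu hv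
      have h := D.mul (v := (u, 0)) (w := (v, 0)) hu hv
      have e : ((u, 0) : F₁ × F₂) * (v, 0) = (u * v, 0) := by simp
      rw [e] at h
      exact h)
    hN₁ hπ₁
    (fun P hP => by
      rw [polesOf_ne_zero_iff] at hP
      rw [polesOf_of_neg hP, hord₁ P hP]; ring)
    (fun P hP => by
      have h1 : π₁ ∈ regAlg k x₁ := D.fst_mem ⟨N₁, hπ₁⟩
      have h2 : 0 ≤ P.ord x₁ := by
        by_contra h3
        exact (polesOf_ne_zero_iff.mpr (not_le.mp h3)) hP
      by_cases hx0 : x₁ = 0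
      · subst hx0
        exact Fermat.FF.ord_nonneg_of_mem P (h1 P (zero_mem _))
      · exact Fermat.FF.ord_nonneg_of_mem P (h1 P ((Fermat.FF.mem_iff_ord P hx0).mpr h2)))
    hm₁
  obtain ⟨n₂, hn₂⟩ := exists_lead (E := polesOf (K := k) x₂) (polesOf_nonneg x₂) hd₂
    (fun n => (D.V n).comap (LinearMap.inr k F₁ F₂))
    (by
      intro m n u v hu hv
      have h := D.mul (v := (0, u)) (w := (0, v)) hu hv
      have e : ((0, u) : F₁ × F₂) * (0, v) = (0, u * v) := by simp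
      rw [e] at h
      exact h)
    hN₂ hπ₂
    (fun P hP => by
      rw [polesOf_ne_zero_iff] at hP
      rw [polesOf_of_neg hP, hord₂ P hP]; ring)
    (fun P hP => by
      have h1 : π₂ ∈ regAlg k x₂ := D.snd_mem ⟨N₂, hπ₂⟩
      have h2 : 0 ≤ P.ord x₂ := by
        by_contra h3
        exact (polesOf_ne_zero_iff.mpr (not_le.mp h3)) hP
      by_cases hx0 : x₂ = 0
      · subst hx0
        exact Fermat.FF.ord_nonneg_of_mem P (h1 P (zero_mem _))
      · exact Fermat.FF.ord_nonneg_of_mem P (h1 P ((Fermat.FF.mem_iff_ord P hx0).mpr h2)))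
    hm₂
  refine ⟨max n₁ n₂, fun n hn => le_antisymm
    (sup_le (D.le _) (WW_mono (Nat.le_succ n))) fun w hw => ?_⟩
  obtain ⟨w₁, w₂⟩ := w
  rw [mem_WW] at hw
  obtain ⟨u, hu, r, hr, h1⟩ := hn₁ n (le_trans (le_max_left _ _) hn) w₁ hw.1
  obtain ⟨u', hu', r', hr', h2⟩ := hn₂ n (le_trans (le_max_right _ _) hn) w₂ hw.2
  have e : ((w₁, w₂) : F₁ × F₂) = ((u, 0) + (0, u')) + (r, r') := by
    rw [h1, h2]; simp
  rw [e]
  refine Submodule.add_mem_sup (add_mem hu hu') ?_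
  exact mem_WW.mpr ⟨hr, hr'⟩

/-- For `n` large, `V n` is `B ∩ W n`. -/
theorem exists_inf_eq (hd₁ : 0 < Divisor.degree (polesOf (K := k) x₁))
    (hd₂ : 0 < Divisor.degree (polesOf (K := k) x₂)) :
    ∃ n₀ : ℕ, ∀ n ≥ n₀, (∀ w ∈ D.B, w ∈ WW k x₁ x₂ n → w ∈ D.V n) ∧
      (Module.finrank k (WW k x₁ x₂ n) : ℤ) = Module.finrank k (D.V n) + g + 1 -
        genusFF k F₁ - genusFF k F₂ := by
  obtain ⟨n₁, hn₁⟩ := D.exists_lead_V hd₁ hd₂
  obtain ⟨n₂, hn₂⟩ := D.finrank
  set M := n₁ + n₂ + 2 * genusFF k F₁ + 2 * genusFF k F₂ with hM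
  have hW : ∀ n ≥ M, (Module.finrank k (WW k x₁ x₂ n) : ℤ) =
      n * (Divisor.degree (polesOf (K := k) x₁) + Divisor.degree (polesOf (K := k) x₂)) + 2 -
        genusFF k F₁ - genusFF k F₂ := by
    intro n hn
    have h0 : (M : ℤ) ≤ n := by exact_mod_cast hn
    have h1 : (2 * genusFF k F₁ : ℤ) ≤ M := by
      have : 2 * genusFF k F₁ ≤ M := by omega
      exact_mod_cast this
    have h2 : (2 * genusFF k F₂ : ℤ) ≤ M := by
      have : 2 * genusFF k F₂ ≤ M := by omega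
      exact_mod_cast this
    apply finrank_WW
    · nlinarith
    · nlinarith
  have key : ∀ n ≥ M, D.V (n + 1) ⊓ WW k x₁ x₂ n = D.V n := by
    intro n hn
    symm
    apply Submodule.eq_of_le_of_finrank_eq (le_inf (D.mono n) (D.le n))
    have h1 := Submodule.finrank_sup_add_finrank_inf_eq (D.V (n + 1)) (WW k x₁ x₂ n)
    rw [hn₁ n (by omega)] at h1
    have h2 := hW n hn
    have h3 := hW (n + 1) (by omega)
    have h4 := hn₂ n (by omega)
    have h5 := hn₂ (n + 1) (by omega)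
    have h6 : (Module.finrank k (WW k x₁ x₂ (n + 1)) : ℤ) +
        Module.finrank k ↥(D.V (n + 1) ⊓ WW k x₁ x₂ n) =
        Module.finrank k (D.V (n + 1)) + Module.finrank k (WW k x₁ x₂ n) := by
      exact_mod_cast h1
    rw [h2, h3, h5] at h6
    have h7 : (Module.finrank k (D.V n) : ℤ) =
        Module.finrank k ↥(D.V (n + 1) ⊓ WW k x₁ x₂ n) := by
      rw [h4]
      push_cast at h6
      linarith
    exact_mod_cast h7
  refine ⟨M, fun n hn => ⟨?_, ?_⟩⟩
  · rintro w ⟨m, hm⟩ hw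
    rcases le_total m n with h | h
    · exact D.mono' h hm
    induction h with
    | refl => exact hm
    | @step m hnm ih =>
      apply ih
      rw [← key m (le_trans hn hnm)]
      exact ⟨hm, WW_mono hnm hw⟩
  · rw [hW n hn, hn₂ n (by omega)]
    ring

end NodeDatum

end Fermat.Agent.DR.Nodes
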