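import Fermat.Agent.DR.Nodes.PoleBound
import Fermat.Agent.DR.Nodes.Datum
import Fermat.Agent.DR.PairShift

set_option autoImplicit false

/-!
# From a pair of reductions to a `NodeDatum`
-/

noncomputable section

open AlgebraicCurve Fermat.Agent.RR Fermat.Agent.JRED WithZero IntermediateField
open Fermat.Agent.DR.PairDegree Fermat.Agent.DR.PairOrtho

namespace Fermat.Agent.DR.Nodes

variable {K F k F₁ F₂ : Type*} [Field K] [Field F] [Algebra K F] [Field k] [Field F₁] [Field F₂]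
  [Algebra k F₁] [Algebra k F₂] [FunctionField K F] {A : ValuationSubring K} {π : A →+* k}

/-- The joint reductions of the functions in `L(n (x)_∞)`. -/
def redV (hπ : Function.Surjective π) (R₁ : RedDatum K F k F₁ A π) (R₂ : RedDatum K F k F₂ A π)
    (x : F) (n : ℕ) : Submodule k (F₁ × F₂) :=
  (pair R₁ R₂).redSub hπ (riemannRochSpace (n • polesOf (K := K) x))

theorem mem_redV {hπ : Function.Surjective π} {R₁ : RedDatum K F k F₁ A π}
    {R₂ : RedDatum K F k F₂ A π} {x : F} {n : ℕ} {u : F₁ × F₂} :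
    u ∈ redV hπ R₁ R₂ x n ↔ ∃ h ∈ riemannRochSpace (n • polesOf (K := K) x), Red₂ R₁ R₂ h u :=
  Iff.rfl

theorem redV_mul {hπ : Function.Surjective π} {R₁ : RedDatum K F k F₁ A π}
    {R₂ : RedDatum K F k F₂ A π} {x : F} {m n : ℕ} {v w : F₁ × F₂}
    (hv : v ∈ redV hπ R₁ R₂ x m) (hw : w ∈ redV hπ R₁ R₂ x n) :
    v * w ∈ redV hπ R₁ R₂ x (m + n) := by
  obtain ⟨h, hh, hr⟩ := mem_redV.mp hv
  obtain ⟨h', hh', hr'⟩ := mem_redV.mp hw
  refine mem_redV.mpr ⟨h * h', ?_, R₁.mul hr.1 hr'.1, R₂.mul hr.2 hr'.2⟩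
  rw [mem_riemannRochSpace_nsmul_iff_val] at hh hh' ⊢
  intro P
  rw [map_mul, pow_add]
  exact mul_le_mul' (hh P) (hh' P)

theorem redV_mono {hπ : Function.Surjective π} {R₁ : RedDatum K F k F₁ A π}
    {R₂ : RedDatum K F k F₂ A π} {x : F} {m n : ℕ} (h : m ≤ n) :
    redV hπ R₁ R₂ x m ≤ redV hπ R₁ R₂ x n :=
  RingRed.redSub_mono (riemannRochSpace_mono (nsmul_polesOf_mono x h))

theorem one_mem_redV {hπ : Function.Surjective π} {R₁ : RedDatum K F k F₁ A π}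
    {R₂ : RedDatum K F k F₂ A π} {x : F} (n : ℕ) :
    ((1 : F₁), (1 : F₂)) ∈ redV hπ R₁ R₂ x n := by
  refine mem_redV.mpr ⟨1, ?_, R₁.one, R₂.one⟩
  rw [mem_riemannRochSpace_nsmul_iff_val]
  intro P
  rw [map_one]
  exact one_le_pow_of_one_le' (le_max_right _ _) n

variable [IsAlgClosed K] [IsAlgClosed k] [FunctionField k F₁] [FunctionField k F₂]

/-- The `NodeDatum` of a pair of reductions. -/
def nodeDatum_of_pair (hπ : Function.Surjective π) (R₁ : RedDatum K F k F₁ A π)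
    (R₂ : RedDatum K F k F₂ A π) (hsep : Separated R₁ R₂)
    (hs1 : ∀ u : F₁, ∃ w, R₁.Red w u) (hs2 : ∀ u : F₂, ∃ w, R₂.Red w u)
    {x : F} {x₁ : F₁} {x₂ : F₂} (red₁ : R₁.Red x x₁) (red₂ : R₂.Red x x₂)
    (tr₁ : Transcendental k x₁) (tr₂ : Transcendental k x₂)
    (hdeg : Divisor.degree (polesOf (K := K) x) =
      Divisor.degree (polesOf (K := k) x₁) + Divisor.degree (polesOf (K := k) x₂))
    (surj₁ : ∀ a ∈ regAlg k x₁, ∃ (n : ℕ) (b : F₂), (a, b) ∈ redV hπ R₁ R₂ x n)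
    (surj₂ : ∀ b ∈ regAlg k x₂, ∃ (n : ℕ) (a : F₁), (a, b) ∈ redV hπ R₁ R₂ x n)
    (inf₁ : ∃ (N : ℕ) (ϖ : F₁), 0 < N ∧ (ϖ, (0 : F₂)) ∈ redV hπ R₁ R₂ x N ∧
      (∀ P : Place k F₁, P.ord x₁ < 0 → P.ord ϖ = N * P.ord x₁) ∧
      ∃ m₀ : ℕ, ∀ m ≥ m₀, ∃ a : ℕ, ∀ w ∈ riemannRochSpace (m • polesOf (K := k) x₁),
        (w * ϖ ^ a, (0 : F₂)) ∈ redV hπ R₁ R₂ x (m + a * N))
    (inf₂ : ∃ (N : ℕ) (ϖ : F₂), 0 < N ∧ ((0 : F₁), ϖ) ∈ redV hπ R₁ R₂ x N ∧
      (∀ P : Place k F₂, P.ord x₂ < 0 → P.ord ϖ = N * P.ord x₂) ∧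
      ∃ m₀ : ℕ, ∀ m ≥ m₀, ∃ a : ℕ, ∀ w ∈ riemannRochSpace (m • polesOf (K := k) x₂),
        ((0 : F₁), w * ϖ ^ a) ∈ redV hπ R₁ R₂ x (m + a * N)) :
    NodeDatum k x₁ x₂ (genusFF K F) where
  V := redV hπ R₁ R₂ x
  le n := by
    intro u hu
    obtain ⟨h, hh, hr⟩ := mem_redV.mp hu
    exact mem_WW.mpr (mem_of_red₂ hπ (pairDegreeLe_of_separated hπ hsep hs1 hs2) red₁ red₂ tr₁ tr₂
      hdeg hh hr)
  mono n := redV_mono (Nat.le_succ n)
  one := one_mem_redV 0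
  mul hv hw := redV_mul hv hw
  finrank := by
    have htr : Transcendental K x := RedDatum.transcendental_of_red hπ red₁ tr₁
    have hfin := Fermat.Agent.JRED.Descent.finiteDimensional_of_transcendental htr
    have hfin1 := Fermat.Agent.JRED.Descent.finiteDimensional_of_transcendental tr₁
    have hfin2 := Fermat.Agent.JRED.Descent.finiteDimensional_of_transcendental tr₂
    have hd := degree_polesOf_pos htr
    refine ⟨2 * genusFF K F, fun n hn => ?_⟩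
    have hsq : ∀ c : K, ∃ s : K, s * s = c := by
      intro c
      obtain ⟨s, hs⟩ := IsAlgClosed.exists_pow_nat_eq c (n := 2) (by norm_num)
      exact ⟨s, by rw [← hs, sq]⟩
    have hdeg' : Module.finrank K⟮x⟯ F ≤ Module.finrank k⟮x₁⟯ F₁ + Module.finrank k⟮x₂⟯ F₂ := by
      have h1 := hdeg
      rw [degree_polesOf htr, degree_polesOf tr₁, degree_polesOf tr₂] at h1
      exact_mod_cast h1.le
    have hO := hasOrtho_pair hπ hsq hsep hs1 hs2 red₁ red₂ tr₁ tr₂ hdeg'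
      (riemannRochSpace (n • polesOf (K := K) x))
    have h1 := hO.finrank_redSub hπ
    rw [redV, h1, finrank_riemannRochSpace_eq, map_nsmul, nsmul_eq_mul, hdeg]
    rw [map_nsmul, nsmul_eq_mul]
    have h2 : (2 * genusFF K F : ℤ) ≤ n := by exact_mod_cast hn
    nlinarith
  surj₁ := surj₁
  surj₂ := surj₂
  inf₁ := inf₁
  inf₂ := inf₂

end Fermat.Agent.DR.Nodes
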