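import Fermat.Agent.DR.Nodes.Main
import Fermat.Agent.DR.Nodes.Bridge

set_option autoImplicit false

/-!
# From a pair of reductions to a `NodalDatum`

Assembly of A0, A1, A2: the structure `NodalDatum` (consumed by `DR/Nodal/*`) from a pair of
reductions of a function field, the surjectivity and infinity conditions of `NodeDatum`, and a
generating set of Frobenius-fixed functions.
-/

noncomputable section

open AlgebraicCurve Fermat.Agent.RR Fermat.Agent.JRED IntermediateField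
open Fermat.Agent.DR.PairDegree Fermat.Agent.DR.PairOrtho Fermat.Agent.DR.PairShift

namespace Fermat.Agent.DR.Nodes

section Shift

variable {k F : Type*} [Field k] [Field F] [Algebra k F]

theorem mem_sub_algebraMap_iff {P : Place k F} {x : F} {a : k} :
    x - algebraMap k F a ∈ P.toValuationSubring ↔ x ∈ P.toValuationSubring := by
  constructor
  · intro h
    have := add_mem h (P.algebraMap_mem' a)
    rwa [sub_add_cancel] at this
  · intro h
    exact sub_mem h (P.algebraMap_mem' a)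

theorem ord_sub_algebraMap_of_neg {P : Place k F} {x : F} {a : k} (h : P.ord x < 0) :
    P.ord (x - algebraMap k F a) = P.ord x := by
  have hx0 : x ≠ 0 := by
    rintro rfl
    rw [P.ord_zero] at h
    exact lt_irrefl _ h
  rw [sub_eq_add_neg]
  apply ord_add_eq_of_lt P hx0
  right
  rw [← map_neg, Fermat.Agent.RR.ord_algebraMap]
  exact h

theorem polesOf_sub_algebraMap [HasPrincipalDivisors k F] (x : F) (a : k) :
    polesOf (K := k) (x - algebraMap k F a) = polesOf (K := k) x := by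
  ext P
  rw [polesOf_apply, polesOf_apply]
  rcases lt_or_ge (P.ord x) 0 with h | h
  · rw [ord_sub_algebraMap_of_neg h]
  · have h1 : 0 ≤ P.ord (x - algebraMap k F a) :=
      Fermat.FF.ord_nonneg_of_mem P (mem_sub_algebraMap_iff.mpr (mem_of_ord_nonneg P h))
    rw [max_eq_right (by omega), max_eq_right (by omega)]

theorem Val.ord_sub_eq_zero {P : Place k F} {x : F} {c a : k} (h : Val P x c) (hne : c ≠ a) :
    P.ord (x - algebraMap k F a) = 0 := by
  have h1 : x - algebraMap k F a ∈ P.toValuationSubring := mem_sub_algebraMap_iff.mpr h.mem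
  have h2 := Fermat.FF.ord_nonneg_of_mem P h1
  by_contra h3
  have h4 : 0 < P.ord (x - algebraMap k F a) := by omega
  have h5 : Val P x a := val_iff.mpr (Or.inr h4)
  exact hne (h.unique h5)

theorem transcendental_sub_algebraMap {x : F} (hx : Transcendental k x) (a : k) :
    Transcendental k (x - algebraMap k F a) := by
  intro h
  apply hx
  have := h.add (isAlgebraic_algebraMap a)
  rwa [sub_add_cancel] at this

end Shift

variable {K F k F₁ F₂ : Type*} [Field K] [Field F] [Algebra K F] [Field k] [Field F₁] [Field F₂]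
  [Algebra k F₁] [Algebra k F₂] [FunctionField K F] {A : ValuationSubring K} {π : A →+* k}
  [IsAlgClosed K] [IsAlgClosed k] [FunctionField k F₁] [FunctionField k F₂]

/-- **Assembly**: a `NodalDatum` from a pair of reductions. -/
theorem exists_nodalDatum (hπ : Function.Surjective π) (hrk : RankOne A)
    (R₁ : RedDatum K F k F₁ A π)
    (R₂ : RedDatum K F k F₂ A π) (hsep : Separated R₁ R₂)
    (hs1 : ∀ u : F₁, ∃ w, R₁.Red w u) (hs2 : ∀ u : F₂, ∃ w, R₂.Red w u)
    {x : F} {x₁ : F₁} {x₂ : F₂} (red₁ : R₁.Red x x₁) (red₂ : R₂.Red x x₂)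
    (tr₁ : Transcendental k x₁) (tr₂ : Transcendental k x₂)
    (hdeg : Divisor.degree (polesOf (K := K) x) =
      Divisor.degree (polesOf (K := k) x₁) + Divisor.degree (polesOf (K := k) x₂))
    (surj₁ : ∀ a ∈ regAlg k x₁, ∃ (n : ℕ) (b : F₂), (a, b) ∈ redV hπ R₁ R₂ x n)
    (surj₂ : ∀ b ∈ regAlg k x₂, ∃ (n : ℕ) (a : F₁), (a, b) ∈ redV hπ R₁ R₂ x n)
    (inf₁ : ∃ (N : ℕ) (ϖ : F₁), 0 < N ∧ (ϖ, (0 : F₂)) ∈ redV hπ R₁ R₂ x N ∧
      (∀ P : Place k F₁, P.ord x₁ < 0 → P.ord ϖ = N * P.ord x₁) ∧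
      ∃ m₀ : ℕ, ∀ m ≥ m₀, ∃ a : ℕ, ∀ w ∈ riemannRochSpace (m • polesOf (K := k) x₁),
        (w * ϖ ^ a, (0 : F₂)) ∈ redV hπ R₁ R₂ x (m + a * N))
    (inf₂ : ∃ (N : ℕ) (ϖ : F₂), 0 < N ∧ ((0 : F₁), ϖ) ∈ redV hπ R₁ R₂ x N ∧
      (∀ P : Place k F₂, P.ord x₂ < 0 → P.ord ϖ = N * P.ord x₂) ∧
      ∃ m₀ : ℕ, ∀ m ≥ m₀, ∃ a : ℕ, ∀ w ∈ riemannRochSpace (m • polesOf (K := k) x₂),
        ((0 : F₁), w * ϖ ^ a) ∈ redV hπ R₁ R₂ x (m + a * N))
    (p r : ℕ) [Fact p.Prime] [CharP k p] (hr : 0 < r) (T : Set F₂)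
    (hT : Algebra.adjoin k T = regAlg k x₂)
    (hTB : ∀ t ∈ T, ∃ n, ((0 : F₁), t ^ p ^ r - t) ∈ redV hπ R₁ R₂ x n)
    (hg : genusFF k F₁ + genusFF k F₂ < genusFF K F + 1) :
    ∃ X : NodalDatum K F k F₁ F₂ A π, X.R₁ = R₁ ∧ X.R₂ = R₂ ∧
      (∃ a : A, X.x = x - algebraMap K F a ∧ X.x₁ = x₁ - algebraMap k F₁ (π a) ∧
        X.x₂ = x₂ - algebraMap k F₂ (π a)) ∧
      (X.nodes.card : ℤ) = genusFF K F + 1 - genusFF k F₁ - genusFF k F₂ ∧
      ∃ n₀ : ℕ, ∀ n ≥ n₀, ∀ w ∈ WW k x₁ x₂ n,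
        (∀ s ∈ X.nodes, ∃ c : k, Val s.1 w.1 c ∧ Val s.2 w.2 c) → w ∈ redV hπ R₁ R₂ x n := by
  classical
  let D := nodeDatum_of_pair hπ R₁ R₂ hsep hs1 hs2 red₁ red₂ tr₁ tr₂ hdeg surj₁ surj₂ inf₁ inf₂
  obtain ⟨S, hcard, hinj₁, hinj₂, hreg, hglue, n₀, hn₀⟩ :=
    D.exists_nodes tr₁ tr₂ p r hr T hT hTB
  have hsq : ∀ c : K, ∃ s : K, s * s = c := fun c => exists_sq_of_isAlgClosed c
  have htr : Transcendental K x := RedDatum.transcendental_of_red hπ red₁ tr₁
  have hfin : FiniteDimensional K⟮x⟯ F := NodeDatum.finiteDimensional_of_transcendental htr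
  have hfin1 : FiniteDimensional k⟮x₁⟯ F₁ := NodeDatum.finiteDimensional_of_transcendental tr₁
  have hfin2 : FiniteDimensional k⟮x₂⟯ F₂ := NodeDatum.finiteDimensional_of_transcendental tr₂
  have hdeg' : Module.finrank K⟮x⟯ F ≤ Module.finrank k⟮x₁⟯ F₁ + Module.finrank k⟮x₂⟯ F₂ := by
    have h1 := hdeg
    rw [degree_polesOf htr, degree_polesOf tr₁, degree_polesOf tr₂] at h1
    exact_mod_cast h1.le
  -- the common values of `x₁`, `x₂` at the nodes
  have hx1 : x ∈ riemannRochSpace (1 • polesOf (K := K) x) := by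
    have hx0 : x ≠ 0 := fun h => htr (h ▸ isAlgebraic_zero)
    rw [mem_nsmul_iff hx0]
    intro P
    rw [polesOf_apply]
    have := le_max_left (-P.ord x) 0
    push_cast
    linarith
  have hxV : (x₁, x₂) ∈ D.B := ⟨1, (mem_redV (hπ := hπ)).mpr ⟨x, hx1, red₁, red₂⟩⟩
  choose! val hval₁ hval₂ using fun s (hs : s ∈ S) => hglue s hs _ hxV
  obtain ⟨c, hc⟩ := (S.image val).exists_notMem
  obtain ⟨a, rfl⟩ := hπ c
  have hca : ∀ s ∈ S, val s ≠ π a := fun s hs h => hc (h ▸ Finset.mem_image_of_mem _ hs)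
  have hpx : polesOf (K := K) (x - algebraMap K F a) = polesOf (K := K) x :=
    polesOf_sub_algebraMap x _
  have hpx₁ : polesOf (K := k) (x₁ - algebraMap k F₁ (π a)) = polesOf (K := k) x₁ :=
    polesOf_sub_algebraMap x₁ _
  have hpx₂ : polesOf (K := k) (x₂ - algebraMap k F₂ (π a)) = polesOf (K := k) x₂ :=
    polesOf_sub_algebraMap x₂ _
  have hmem : ∀ (n : ℕ) (h : F) (u : F₁ × F₂), h ∈ riemannRochSpace (n • polesOf (K := K) x) →
      Red₂ R₁ R₂ h u → u ∈ D.V n := fun n h u hh hu => (mem_redV (hπ := hπ)).mpr ⟨h, hh, hu⟩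
  refine ⟨{
    R₁ := R₁
    R₂ := R₂
    ortho := fun W hW => hasOrthoPair_of_finrank hπ hsq hsep hs1 hs2 red₁ red₂ tr₁ tr₂ hdeg' W hW
    approx := exists_red₂ hπ hsq hsep hs1 hs2
    shift := fun d hd => exists_shift hπ hsq hrk hsep hs1 hs2 d hd
    x := x - algebraMap K F a
    x₁ := x₁ - algebraMap k F₁ (π a)
    x₂ := x₂ - algebraMap k F₂ (π a)
    red₁ := RedDatum.sub red₁ (R₁.const a)
    red₂ := RedDatum.sub red₂ (R₂.const a)
    transcendental₁ := transcendental_sub_algebraMap tr₁ _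
    transcendental₂ := transcendental_sub_algebraMap tr₂ _
    degree_eq := by rw [hpx, hpx₁, hpx₂, hdeg]
    nodes := S
    nodes_nonempty := by
      rw [← Finset.card_pos]
      have h1 : (0 : ℤ) < S.card := by
        rw [hcard]
        have : (genusFF k F₁ : ℤ) + genusFF k F₂ < genusFF K F + 1 := by exact_mod_cast hg
        linarith
      exact_mod_cast h1
    injOn_fst := hinj₁
    injOn_snd := hinj₂
    ord_x₁ := fun s hs => (hval₁ s hs).ord_sub_eq_zero (hca s hs)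
    ord_x₂ := fun s hs => (hval₂ s hs).ord_sub_eq_zero (hca s hs)
    mem₁ := fun n h u hh hu => by
      rw [hpx] at hh
      rw [hpx₁]
      exact (mem_WW.mp (D.le n (hmem n h u hh hu))).1
    mem₂ := fun n h u hh hu => by
      rw [hpx] at hh
      rw [hpx₂]
      exact (mem_WW.mp (D.le n (hmem n h u hh hu))).2
    glue := fun n h u hh hu s hs => by
      rw [hpx] at hh
      exact hglue s hs u ⟨n, hmem n h u hh hu⟩
    genus_le := by
      have h1 : ((genusFF K F + 1 : ℕ) : ℤ) ≤ ((genusFF k F₁ + genusFF k F₂ + S.card : ℕ) : ℤ) := by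
        push_cast
        rw [hcard]
        linarith
      exact_mod_cast h1 }, rfl, rfl, ⟨a, rfl, rfl, rfl⟩, hcard, n₀, hn₀⟩

end Fermat.Agent.DR.Nodes
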