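import Fermat.Agent.RR.Corollaries

set_option autoImplicit false

/-!
# Leading coefficients at infinity

One-sided lemma: a multiplicative filtration `U n ⊆ L(nE)` which, up to multiplying by powers of
some `π` with exact polar divisor `N E`, contains everything, eventually surjects onto
`L((n+1)E) / L(nE)`.
-/

noncomputable section

open AlgebraicCurve Fermat.Agent.RR

namespace Fermat.Agent.DR.Nodes

variable {k F : Type*} [Field k] [Field F] [Algebra k F] [IsAlgClosed k] [FunctionField k F]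

omit [IsAlgClosed k] [FunctionField k F] in
theorem degree_nsmul (E : Divisor k F) (n : ℕ) :
    Divisor.degree (n • E) = n * Divisor.degree E := by
  rw [map_nsmul, nsmul_eq_mul]

theorem finrank_nsmul {E : Divisor k F} {n : ℕ}
    (hn : 2 * (genusFF k F : ℤ) - 2 < n * Divisor.degree E) :
    (Module.finrank k (riemannRochSpace (n • E)) : ℤ) = n * Divisor.degree E + 1 - genusFF k F := by
  rw [finrank_riemannRochSpace_eq (D := n • E) (by rw [degree_nsmul]; exact hn), degree_nsmul]

omit [IsAlgClosed k] [FunctionField k F] in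
theorem mem_nsmul_iff {E : Divisor k F} {n : ℕ} {f : F} (hf : f ≠ 0) :
    f ∈ riemannRochSpace (n • E) ↔ ∀ P, -(n * E P) ≤ P.ord f := by
  rw [mem_riemannRochSpace_iff]
  simp [hf]

/-- `L((n+1+N)E) = π L((n+1)E) + L((n+N)E)` for `n` large, if `π` has polar divisor `N E`. -/
theorem exists_eq_mul_add {E : Divisor k F} (hE : 0 ≤ E) (hE0 : 0 < Divisor.degree E)
    {N : ℕ} {π : F} (hπ0 : π ≠ 0) (hπ : ∀ P, E P ≠ 0 → P.ord π = -(N * E P))
    (hπ' : ∀ P, E P = 0 → 0 ≤ P.ord π) {n : ℕ}
    (hn : 2 * (genusFF k F : ℤ) - 2 < n * Divisor.degree E) {f : F}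
    (hf : f ∈ riemannRochSpace ((n + 1 + N) • E)) :
    ∃ g ∈ riemannRochSpace ((n + 1) • E), ∃ h ∈ riemannRochSpace ((n + N) • E),
      f = π * g + h := by
  have hinj : Function.Injective (LinearMap.mulLeft k π) := fun a b hab =>
    mul_left_cancel₀ hπ0 hab
  have hπge : ∀ P, -(N * E P) ≤ P.ord π := fun P => by
    by_cases hP : E P = 0
    · rw [hP]; simpa using hπ' P hP
    · exact (hπ P hP).ge
  set A := (riemannRochSpace ((n + 1) • E)).map (LinearMap.mulLeft k π) with hA
  set B := riemannRochSpace ((n + N) • E) with hB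
  have hAle : A ≤ riemannRochSpace ((n + 1 + N) • E) := by
    rintro _ ⟨a, ha, rfl⟩
    show π * a ∈ _
    rcases eq_or_ne a 0 with rfl | ha0
    · rw [mul_zero]; exact zero_mem _
    rw [mem_nsmul_iff (mul_ne_zero hπ0 ha0)]
    intro P
    rw [P.ord_mul hπ0 ha0]
    have h1 := hπge P
    have h2 := (mem_nsmul_iff ha0).mp ha P
    push_cast at h2 ⊢
    linarith
  have hBle : B ≤ riemannRochSpace ((n + 1 + N) • E) := by
    apply riemannRochSpace_mono
    intro P
    have := hE P
    simp only [Finsupp.coe_zero, Pi.zero_apply] at this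
    simp only [Finsupp.coe_smul, Pi.smul_apply, nsmul_eq_mul]
    push_cast
    nlinarith
  have hinf : A ⊓ B = (riemannRochSpace (n • E)).map (LinearMap.mulLeft k π) := by
    apply le_antisymm
    · rintro _ ⟨⟨a, ha, rfl⟩, hb⟩
      refine ⟨a, ?_, rfl⟩
      rcases eq_or_ne a 0 with rfl | ha0
      · exact zero_mem _
      have hb' : π * a ∈ riemannRochSpace ((n + N) • E) := hb
      rw [mem_nsmul_iff (mul_ne_zero hπ0 ha0)] at hb'
      show a ∈ riemannRochSpace (n • E)
      rw [mem_nsmul_iff ha0]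
      intro P
      have h2 := hb' P
      rw [P.ord_mul hπ0 ha0] at h2
      have h3 := (mem_nsmul_iff ha0).mp ha P
      by_cases hP : E P = 0
      · rw [hP] at h3 ⊢
        simpa using h3
      · rw [hπ P hP] at h2
        push_cast at h2
        linarith
    · rintro _ ⟨a, ha, rfl⟩
      have ha' : a ∈ riemannRochSpace (n • E) := ha
      refine ⟨⟨a, ?_, rfl⟩, ?_⟩
      · refine riemannRochSpace_mono ?_ ha'
        intro P
        have := hE P
        simp only [Finsupp.coe_zero, Pi.zero_apply] at this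
        simp only [Finsupp.coe_smul, Pi.smul_apply, nsmul_eq_mul]
        push_cast
        nlinarith
      · show π * a ∈ riemannRochSpace ((n + N) • E)
        rcases eq_or_ne a 0 with rfl | ha0
        · rw [mul_zero]; exact zero_mem _
        rw [mem_nsmul_iff (mul_ne_zero hπ0 ha0)]
        intro P
        rw [P.ord_mul hπ0 ha0]
        have h1 := hπge P
        have h2 := (mem_nsmul_iff ha0).mp ha' P
        push_cast at h2 ⊢
        linarith
  have hmul : ∀ S : Submodule k F, Module.finrank k (S.map (LinearMap.mulLeft k π)) =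
      Module.finrank k S := fun S => (Submodule.equivMapOfInjective _ hinj S).finrank_eq.symm
  have hAfin : Module.Finite k A := Module.Finite.map _ _
  have hdim := Submodule.finrank_sup_add_finrank_inf_eq A B
  rw [hinf, hmul, hA, hmul, hB] at hdim
  have hle1 : ∀ m : ℕ, n ≤ m → 2 * (genusFF k F : ℤ) - 2 < m * Divisor.degree E := by
    intro m hm
    have : (n : ℤ) ≤ m := by exact_mod_cast hm
    nlinarith
  have e1 := finrank_nsmul hn
  have e2 := finrank_nsmul (hle1 (n + 1) (by omega))
  have e3 := finrank_nsmul (hle1 (n + N) (by omega))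
  have e4 := finrank_nsmul (hle1 (n + 1 + N) (by omega))
  have hsup : A ⊔ B = riemannRochSpace ((n + 1 + N) • E) := by
    apply Submodule.eq_of_le_of_finrank_eq (sup_le hAle hBle)
    have h5 : (Module.finrank k ↥(A ⊔ B) : ℤ) + Module.finrank k (riemannRochSpace (n • E)) =
        Module.finrank k (riemannRochSpace ((n + 1) • E)) +
          Module.finrank k (riemannRochSpace ((n + N) • E)) := by
      exact_mod_cast hdim
    have h6 : (Module.finrank k ↥(A ⊔ B) : ℤ) =
        Module.finrank k (riemannRochSpace ((n + 1 + N) • E)) := by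
      rw [e1, e2, e3] at h5
      rw [e4]
      push_cast at h5 ⊢
      linarith
    exact_mod_cast h6
  rw [← hsup] at hf
  obtain ⟨y, hy, z, hz, rfl⟩ := Submodule.mem_sup.mp hf
  obtain ⟨g, hg, rfl⟩ := hy
  exact ⟨g, hg, z, hz, rfl⟩

theorem exists_lead {E : Divisor k F} (hE : 0 ≤ E) (hE0 : 0 < Divisor.degree E)
    (U : ℕ → Submodule k F)
    (hU : ∀ {m n : ℕ} {u v : F}, u ∈ U m → v ∈ U n → u * v ∈ U (m + n))
    {N : ℕ} (hN : 0 < N) {π : F} (hπU : π ∈ U N)
    (hπ : ∀ P, E P ≠ 0 → P.ord π = -(N * E P)) (hπ' : ∀ P, E P = 0 → 0 ≤ P.ord π)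
    {m₀ : ℕ} (h : ∀ m ≥ m₀, ∃ a : ℕ, ∀ w ∈ riemannRochSpace (m • E), w * π ^ a ∈ U (m + a * N)) :
    ∃ n₀ : ℕ, ∀ n ≥ n₀, ∀ w ∈ riemannRochSpace ((n + 1) • E), ∃ u ∈ U (n + 1),
      ∃ r ∈ riemannRochSpace (n • E), w = u + r := by
  classical
  -- `π ≠ 0`
  have hπ0 : π ≠ 0 := by
    rintro rfl
    have : E = 0 := by
      ext P
      by_contra hP
      have h1 := hπ P hP
      rw [P.ord_zero] at h1
      have h2 : (N : ℤ) * E P = 0 := by linarith
      rcases mul_eq_zero.mp h2 with h3 | h3
      · have : N = 0 := by exact_mod_cast h3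
        omega
      · exact hP h3
    rw [this, map_zero] at hE0
    exact lt_irrefl _ hE0
  have hpow : ∀ a : ℕ, ∀ {m : ℕ} {u : F}, u ∈ U m → u * π ^ a ∈ U (m + a * N) := by
    intro a
    induction a with
    | zero => intro m u hu; simpa using hu
    | succ a ih =>
      intro m u hu
      have h1 := hU (ih hu) hπU
      have e : m + a * N + N = m + (a + 1) * N := by ring
      rw [e] at h1
      rwa [pow_succ, ← mul_assoc]
  -- a threshold for Riemann-Roch
  obtain ⟨M, hM0, hM⟩ : ∃ M : ℕ, m₀ ≤ M ∧ 2 * (genusFF k F : ℤ) - 2 < M * Divisor.degree E := by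
    refine ⟨m₀ + 2 * genusFF k F, by omega, ?_⟩
    push_cast
    have h1 : (0 : ℤ) ≤ m₀ := Int.natCast_nonneg _
    have h2 : (0 : ℤ) ≤ genusFF k F := Int.natCast_nonneg _
    nlinarith
  choose a ha using fun j : ℕ => h (M + j + 1) (by omega)
  set B := (Finset.range N).sup a with hB
  refine ⟨M + B * N, fun n hn w hw => ?_⟩
  obtain ⟨j, b, hj, hb, hnj⟩ : ∃ j b : ℕ, j < N ∧ B ≤ b ∧ n = M + j + b * N := by
    refine ⟨(n - M) % N, (n - M) / N, Nat.mod_lt _ hN, ?_, ?_⟩
    · rw [Nat.le_div_iff_mul_le hN]; omega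
    · have := Nat.mod_add_div (n - M) N
      rw [mul_comm N] at this
      omega
  subst hnj
  have haj : a j ≤ b := (Finset.le_sup (Finset.mem_range.mpr hj)).trans hb
  have hw' : w ∈ riemannRochSpace ((M + j + 1 + b * N) • E) := by
    have e : M + j + b * N + 1 = M + j + 1 + b * N := by ring
    rwa [e] at hw
  obtain ⟨g, hg, r, hr, hwgr⟩ := exists_eq_mul_add hE hE0 (pow_ne_zero b hπ0) (N := b * N)
    (fun P hP => by
      rw [ord_pow, hπ P hP]; push_cast; ring)
    (fun P hP => by
      rw [ord_pow]; exact mul_nonneg (Int.natCast_nonneg _) (hπ' P hP))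
    (n := M + j) (by
      push_cast
      have : (0 : ℤ) ≤ j := Int.natCast_nonneg _
      nlinarith) hw'
  refine ⟨π ^ b * g, ?_, r, hr, hwgr⟩
  have h1 := ha j g hg
  have h2 := hpow (b - a j) h1
  have e1 : g * π ^ a j * π ^ (b - a j) = π ^ b * g := by
    rw [mul_assoc, ← pow_add, Nat.add_sub_cancel' haj, mul_comm]
  have e2 : M + j + 1 + a j * N + (b - a j) * N = M + j + b * N + 1 := by
    have : a j * N + (b - a j) * N = b * N := by
      rw [← add_mul, Nat.add_sub_cancel' haj]
    omega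
  rwa [e1, e2] at h2

end Fermat.Agent.DR.Nodes
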