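import Fermat.Agent.DR.Nodes.Datum

set_option autoImplicit false

/-!
# The nodes of a `NodeDatum`

Main theorem `NodeDatum.exists_nodes`.
-/

noncomputable section

open AlgebraicCurve Fermat.Agent.RR IntermediateField

namespace Fermat.Agent.DR.Nodes

variable {k F₁ F₂ : Type*} [Field k] [Field F₁] [Field F₂] [Algebra k F₁] [Algebra k F₂]
  [FunctionField k F₁] [FunctionField k F₂] {x₁ : F₁} {x₂ : F₂} {g : ℕ}

namespace NodeDatum

section Conductor

variable (D : NodeDatum k x₁ x₂ g)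

/-- The conductor ideal on the second component. -/
def I₂ : Ideal (regAlg k x₂) where
  carrier := {b | ((0 : F₁), (b : F₂)) ∈ D.B}
  add_mem' := by
    intro a b ha hb
    have h := D.B.add_mem (x := ((0 : F₁), (a : F₂))) (y := ((0 : F₁), (b : F₂))) ha hb
    simpa using h
  zero_mem' := D.B.zero_mem
  smul_mem' := by
    intro c b hb
    obtain ⟨n, a, h⟩ := D.surj₂ c c.2
    have h1 := D.B.mul_mem (x := (a, (c : F₂))) ⟨n, h⟩ hb
    have e : ((a, (c : F₂)) : F₁ × F₂) * (0, (b : F₂)) = (0, ((c • b : regAlg k x₂) : F₂)) := by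
      simp
    rw [e] at h1
    exact h1

theorem mem_I₂ {b : regAlg k x₂} : b ∈ D.I₂ ↔ ((0 : F₁), (b : F₂)) ∈ D.B := Iff.rfl

/-- `b ↦ (0, b)` mod `B`. -/
def psi : regAlg k x₂ →ₗ[k] (F₁ × F₂) ⧸ (Subalgebra.toSubmodule D.B) :=
  (Subalgebra.toSubmodule D.B).mkQ ∘ₗ (LinearMap.inr k F₁ F₂) ∘ₗ (regAlg k x₂).val.toLinearMap

theorem psi_apply (b : regAlg k x₂) :
    D.psi b = (Subalgebra.toSubmodule D.B).mkQ ((0 : F₁), (b : F₂)) := rfl

theorem psi_eq_zero_iff {b : regAlg k x₂} : D.psi b = 0 ↔ b ∈ D.I₂ := by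
  rw [psi_apply, Submodule.mkQ_apply, Submodule.Quotient.mk_eq_zero]
  rfl

end Conductor

section Count

variable [IsAlgClosed k] (D : NodeDatum k x₁ x₂ g)

/-- `W n` modulo `B`. -/
def im (n : ℕ) : Submodule k ((F₁ × F₂) ⧸ (Subalgebra.toSubmodule D.B)) :=
  (WW k x₁ x₂ n).map (Subalgebra.toSubmodule D.B).mkQ

theorem im_mono {m n : ℕ} (h : m ≤ n) : D.im m ≤ D.im n := Submodule.map_mono (WW_mono h)

instance finite_im (n : ℕ) : Module.Finite k (D.im n) := Module.Finite.map _ _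

theorem finrank_im {n : ℕ} (h : ∀ w ∈ D.B, w ∈ WW k x₁ x₂ n → w ∈ D.V n) :
    Module.finrank k (D.im n) + Module.finrank k (D.V n) =
      Module.finrank k (WW k x₁ x₂ n) := by
  let f := (Subalgebra.toSubmodule D.B).mkQ.domRestrict (WW k x₁ x₂ n)
  have h1 := f.finrank_range_add_finrank_ker
  have h2 : LinearMap.range f = D.im n := by
    unfold im
    exact LinearMap.range_domRestrict _ _
  have h3 : LinearMap.ker f = (D.V n).submoduleOf (WW k x₁ x₂ n) := by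
    ext ⟨w, hw⟩
    rw [LinearMap.mem_ker]
    show (Subalgebra.toSubmodule D.B).mkQ w = 0 ↔ w ∈ D.V n
    rw [Submodule.mkQ_apply, Submodule.Quotient.mk_eq_zero]
    exact ⟨fun hB => h w hB hw, fun hV => ⟨n, hV⟩⟩
  rw [h2, h3, (Submodule.submoduleOfEquivOfLe (D.le n)).finrank_eq] at h1
  exact h1

theorem exists_range_psi (hd₁ : 0 < Divisor.degree (polesOf (K := k) x₁))
    (hd₂ : 0 < Divisor.degree (polesOf (K := k) x₂)) :
    ∃ n₀ : ℕ, (∀ n ≥ n₀, ∀ w ∈ D.B, w ∈ WW k x₁ x₂ n → w ∈ D.V n) ∧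
      LinearMap.range D.psi = D.im n₀ ∧
      (Module.finrank k (D.im n₀) : ℤ) = g + 1 - genusFF k F₁ - genusFF k F₂ := by
  obtain ⟨n₀, hn₀⟩ := D.exists_inf_eq hd₁ hd₂
  have hfr : ∀ n ≥ n₀, (Module.finrank k (D.im n) : ℤ) =
      g + 1 - genusFF k F₁ - genusFF k F₂ := by
    intro n hn
    obtain ⟨h1, h2⟩ := hn₀ n hn
    have h3 := D.finrank_im h1
    have h4 : (Module.finrank k (D.im n) : ℤ) + Module.finrank k (D.V n) =
        Module.finrank k (WW k x₁ x₂ n) := by exact_mod_cast h3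
    linarith
  have heq : ∀ n ≥ n₀, D.im n₀ = D.im n := fun n hn => by
    apply Submodule.eq_of_le_of_finrank_eq (D.im_mono hn)
    have h1 := hfr n hn
    have h2 := hfr n₀ le_rfl
    exact_mod_cast h2.trans h1.symm
  refine ⟨n₀, fun n hn => (hn₀ n hn).1, le_antisymm ?_ ?_, hfr n₀ le_rfl⟩
  · rintro _ ⟨b, rfl⟩
    obtain ⟨n, hn⟩ := exists_mem_of_mem_regAlg b.2
    rw [heq (max n₀ n) (le_max_left _ _), psi_apply]
    refine Submodule.mem_map_of_mem (mem_WW.mpr ⟨zero_mem _, ?_⟩)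
    exact riemannRochSpace_mono (nsmul_polesOf_mono x₂ (le_max_right _ _)) hn
  · rintro _ ⟨⟨a, b⟩, hw, rfl⟩
    have hw' := mem_WW.mp hw
    obtain ⟨n, b', hb'⟩ := D.surj₁ a (mem_regAlg_of_mem hw'.1)
    have hbb : b - b' ∈ regAlg k x₂ :=
      sub_mem (mem_regAlg_of_mem hw'.2) (D.snd_mem (v := (a, b')) ⟨n, hb'⟩)
    refine ⟨⟨b - b', hbb⟩, ?_⟩
    rw [psi_apply, ← sub_eq_zero, ← map_sub, Submodule.mkQ_apply, Submodule.Quotient.mk_eq_zero]
    have e : ((0 : F₁), b - b') - (a, b) = -(a, b') := by simp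
    show ((0 : F₁), b - b') - (a, b) ∈ Subalgebra.toSubmodule D.B
    rw [e]
    exact neg_mem (show (a, b') ∈ D.B from ⟨n, hb'⟩)

/-- `B₂ / I₂ ≃ range psi`. -/
def quotEquivRange : (regAlg k x₂ ⧸ D.I₂) ≃ₗ[k] LinearMap.range D.psi :=
  have hs : Function.Surjective (Ideal.Quotient.mkₐ k D.I₂).toLinearMap :=
    Ideal.Quotient.mkₐ_surjective k D.I₂
  have hk : LinearMap.ker (Ideal.Quotient.mkₐ k D.I₂).toLinearMap = LinearMap.ker D.psi := by
    ext b
    rw [LinearMap.mem_ker, LinearMap.mem_ker, D.psi_eq_zero_iff]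
    exact Ideal.Quotient.eq_zero_iff_mem
  ((Ideal.Quotient.mkₐ k D.I₂).toLinearMap.quotKerEquivOfSurjective hs).symm ≪≫ₗ
    (Submodule.quotEquivOfEq _ _ hk) ≪≫ₗ D.psi.quotKerEquivRange

theorem finite_quot (hd₁ : 0 < Divisor.degree (polesOf (K := k) x₁))
    (hd₂ : 0 < Divisor.degree (polesOf (K := k) x₂)) :
    Module.Finite k (regAlg k x₂ ⧸ D.I₂) := by
  obtain ⟨n₀, -, h1, -⟩ := D.exists_range_psi hd₁ hd₂
  have : Module.Finite k (LinearMap.range D.psi) := by rw [h1]; infer_instance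
  exact Module.Finite.equiv D.quotEquivRange.symm

theorem finrank_quot (hd₁ : 0 < Divisor.degree (polesOf (K := k) x₁))
    (hd₂ : 0 < Divisor.degree (polesOf (K := k) x₂)) :
    (Module.finrank k (regAlg k x₂ ⧸ D.I₂) : ℤ) = g + 1 - genusFF k F₁ - genusFF k F₂ := by
  obtain ⟨n₀, -, h1, h2⟩ := D.exists_range_psi hd₁ hd₂
  rw [D.quotEquivRange.finrank_eq, h1, h2]

end Count

section Reduced

variable (D : NodeDatum k x₁ x₂ g)

theorem isReduced_quot (p r : ℕ) [Fact p.Prime] [CharP k p] (hr : 0 < r) (T : Set F₂)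
    (hT : Algebra.adjoin k T = regAlg k x₂)
    (hTB : ∀ t ∈ T, ((0 : F₁), t ^ p ^ r - t) ∈ D.B) : IsReduced (regAlg k x₂ ⧸ D.I₂) := by
  have hTsub : ∀ t ∈ T, t ∈ regAlg k x₂ := fun t ht => hT ▸ Algebra.subset_adjoin ht
  set T' : Set (regAlg k x₂) := {t | (t : F₂) ∈ T} with hT'
  have h1 : Algebra.adjoin k T' = ⊤ := by
    apply Subalgebra.map_injective (f := (regAlg k x₂).val) Subtype.val_injective
    rw [AlgHom.map_adjoin]
    have h2 : (regAlg k x₂).val '' T' = T := by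
      ext t
      constructor
      · rintro ⟨s, hs, rfl⟩; exact hs
      · intro ht; exact ⟨⟨t, hTsub t ht⟩, ht, rfl⟩
    rw [h2, hT, Algebra.map_top, Subalgebra.range_val]
  refine isReduced_of_adjoin (k := k) p r hr (Ideal.Quotient.mkₐ k D.I₂ '' T') ?_ ?_
  · rw [← AlgHom.map_adjoin, h1, Algebra.map_top, AlgHom.range_eq_top]
    exact Ideal.Quotient.mkₐ_surjective k D.I₂
  · rintro _ ⟨t, ht, rfl⟩
    rw [← map_pow, ← sub_eq_zero, ← map_sub, Ideal.Quotient.mkₐ_eq_mk,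
      Ideal.Quotient.eq_zero_iff_mem, mem_I₂]
    exact hTB t ht

end Reduced

section Characters

variable (D : NodeDatum k x₁ x₂ g)

theorem eq_of_fst_eq {χ : regAlg k x₂ →ₐ[k] k} (hχ : ∀ b ∈ D.I₂, χ b = 0)
    {v w : F₁ × F₂} (hv : v ∈ D.B) (hw : w ∈ D.B) (h : v.1 = w.1) :
    χ ⟨v.2, D.snd_mem hv⟩ = χ ⟨w.2, D.snd_mem hw⟩ := by
  rw [← sub_eq_zero, ← map_sub]
  apply hχ
  rw [mem_I₂]
  have h1 := sub_mem hv hw
  have e : v - w = ((0 : F₁), v.2 - w.2) := by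
    ext
    · simp [h]
    · simp
  rw [e] at h1
  exact h1

/-- The induced character on the first component. -/
def char₁ (χ : regAlg k x₂ →ₐ[k] k) (hχ : ∀ b ∈ D.I₂, χ b = 0) : regAlg k x₁ →ₐ[k] k :=
  have hex : ∀ a : regAlg k x₁, ∃ b : F₂, ((a : F₁), b) ∈ D.B := fun a => by
    obtain ⟨n, b, h⟩ := D.surj₁ a a.2
    exact ⟨b, n, h⟩
  let lift : regAlg k x₁ → k := fun a => χ ⟨(hex a).choose, D.snd_mem (hex a).choose_spec⟩
  have key : ∀ (a : regAlg k x₁) (v : F₁ × F₂) (hv : v ∈ D.B), (a : F₁) = v.1 →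
      lift a = χ ⟨v.2, D.snd_mem hv⟩ := fun a v hv h =>
    D.eq_of_fst_eq hχ (hex a).choose_spec hv h
  { toFun := lift
    map_one' := by
      rw [key 1 1 D.B.one_mem rfl]
      exact map_one χ
    map_mul' := fun a b => by
      rw [key (a * b) _ (D.B.mul_mem (hex a).choose_spec (hex b).choose_spec) rfl]
      exact map_mul χ ⟨(hex a).choose, D.snd_mem (hex a).choose_spec⟩
        ⟨(hex b).choose, D.snd_mem (hex b).choose_spec⟩
    map_zero' := by
      rw [key 0 0 D.B.zero_mem rfl]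
      exact map_zero χ
    map_add' := fun a b => by
      rw [key (a + b) _ (D.B.add_mem (hex a).choose_spec (hex b).choose_spec) rfl]
      exact map_add χ ⟨(hex a).choose, D.snd_mem (hex a).choose_spec⟩
        ⟨(hex b).choose, D.snd_mem (hex b).choose_spec⟩
    commutes' := fun c => by
      show lift _ = c
      rw [key _ (algebraMap k (F₁ × F₂) c) (D.B.algebraMap_mem c) rfl]
      exact χ.commutes c }

theorem char₁_apply {χ : regAlg k x₂ →ₐ[k] k} (hχ : ∀ b ∈ D.I₂, χ b = 0)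
    {v : F₁ × F₂} (hv : v ∈ D.B) :
    D.char₁ χ hχ ⟨v.1, D.fst_mem hv⟩ = χ ⟨v.2, D.snd_mem hv⟩ := by
  have hex : ∃ b : F₂, (v.1, b) ∈ D.B := by
    obtain ⟨n, b, h⟩ := D.surj₁ v.1 (D.fst_mem hv)
    exact ⟨b, n, h⟩
  exact D.eq_of_fst_eq hχ (v := (v.1, hex.choose)) hex.choose_spec hv rfl

end Characters

section Main

variable [IsAlgClosed k] (D : NodeDatum k x₁ x₂ g)

omit [IsAlgClosed k] in
theorem finiteDimensional_of_transcendental {F : Type*} [Field F] [Algebra k F]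
    [FunctionField k F] {x : F} (hx : Transcendental k x) : FiniteDimensional k⟮x⟯ F := by
  have : Fermat.FF.IsFF1 k F := ⟨FunctionField.exists_finite⟩
  exact Fermat.FF.IsFF1.finiteDimensional_adjoin hx

theorem degree_polesOf_pos {F : Type*} [Field F] [Algebra k F]
    [FunctionField k F] {x : F} (hx : Transcendental k x) :
    0 < Divisor.degree (polesOf (K := k) x) := by
  have := finiteDimensional_of_transcendental (k := k) hx
  rw [degree_polesOf hx]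
  exact_mod_cast Module.finrank_pos

/-- **The nodes.** -/
theorem exists_nodes (hx₁ : Transcendental k x₁) (hx₂ : Transcendental k x₂)
    (p r : ℕ) [Fact p.Prime] [CharP k p] (hr : 0 < r) (T : Set F₂)
    (hT : Algebra.adjoin k T = regAlg k x₂)
    (hTB : ∀ t ∈ T, ((0 : F₁), t ^ p ^ r - t) ∈ D.B) :
    ∃ S : Finset (Place k F₁ × Place k F₂),
      (S.card : ℤ) = g + 1 - genusFF k F₁ - genusFF k F₂ ∧
      Set.InjOn Prod.fst (S : Set (Place k F₁ × Place k F₂)) ∧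
      Set.InjOn Prod.snd (S : Set (Place k F₁ × Place k F₂)) ∧
      (∀ s ∈ S, x₁ ∈ s.1.toValuationSubring ∧ x₂ ∈ s.2.toValuationSubring) ∧
      (∀ s ∈ S, ∀ v ∈ D.B, ∃ c : k, Val s.1 v.1 c ∧ Val s.2 v.2 c) ∧
      ∃ n₀ : ℕ, ∀ n ≥ n₀, ∀ w ∈ WW k x₁ x₂ n,
        (∀ s ∈ S, ∃ c : k, Val s.1 w.1 c ∧ Val s.2 w.2 c) → w ∈ D.V n := by
  classical
  have hf₁ := finiteDimensional_of_transcendental (k := k) hx₁
  have hf₂ := finiteDimensional_of_transcendental (k := k) hx₂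
  have hd₁ := degree_polesOf_pos hx₁
  have hd₂ := degree_polesOf_pos hx₂
  have hfin := D.finite_quot hd₁ hd₂
  have hred := D.isReduced_quot p r hr T hT hTB
  have hchar : Finite ((regAlg k x₂ ⧸ D.I₂) →ₐ[k] k) := finite_algHom
  have : Fintype ((regAlg k x₂ ⧸ D.I₂) →ₐ[k] k) := Fintype.ofFinite _
  -- characters of `B₂` killing `I₂`
  let res : ((regAlg k x₂ ⧸ D.I₂) →ₐ[k] k) → (regAlg k x₂ →ₐ[k] k) :=
    fun χ => χ.comp (Ideal.Quotient.mkₐ k D.I₂)
  have hres : ∀ χ, ∀ b ∈ D.I₂, res χ b = 0 := fun χ b hb => by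
    show χ (Ideal.Quotient.mk D.I₂ b) = 0
    rw [Ideal.Quotient.eq_zero_iff_mem.mpr hb, map_zero]
  choose P₂ hP₂x hP₂ using fun χ => exists_place_of_character hx₂ (res χ)
  choose P₁ hP₁x hP₁ using fun χ => exists_place_of_character hx₁ (D.char₁ (res χ) (hres χ))
  -- gluing
  have hglue : ∀ χ, ∀ v (hv : v ∈ D.B), Val (P₁ χ) v.1 (res χ ⟨v.2, D.snd_mem hv⟩) ∧
      Val (P₂ χ) v.2 (res χ ⟨v.2, D.snd_mem hv⟩) := by
    intro χ v hv
    refine ⟨?_, hP₂ χ ⟨v.2, D.snd_mem hv⟩⟩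
    have h1 := hP₁ χ ⟨v.1, D.fst_mem hv⟩
    rwa [D.char₁_apply (hres χ) hv] at h1
  have hinj₂ : Function.Injective P₂ := by
    intro χ χ' h
    refine AlgHom.ext fun y => ?_
    obtain ⟨b, rfl⟩ := Ideal.Quotient.mkₐ_surjective k D.I₂ y
    have h1 := hP₂ χ b
    have h2 := hP₂ χ' b
    rw [← h] at h2
    exact h1.unique h2
  have hinj₁ : Function.Injective P₁ := by
    intro χ χ' h
    refine AlgHom.ext fun y => ?_
    obtain ⟨b, rfl⟩ := Ideal.Quotient.mkₐ_surjective k D.I₂ y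
    obtain ⟨n, a, hab⟩ := D.surj₂ b b.2
    have h1 := (hglue χ (a, (b : F₂)) ⟨n, hab⟩).1
    have h2 := (hglue χ' (a, (b : F₂)) ⟨n, hab⟩).1
    rw [← h] at h2
    exact h1.unique h2
  have hinj : Function.Injective fun χ => (P₁ χ, P₂ χ) := fun χ χ' h =>
    hinj₂ (congrArg Prod.snd h)
  obtain ⟨n₀, hn₀, -, -⟩ := D.exists_range_psi hd₁ hd₂
  refine ⟨Finset.univ.image fun χ => (P₁ χ, P₂ χ), ?_, ?_, ?_, ?_, ?_, n₀, ?_⟩
  · rw [Finset.card_image_of_injective _ hinj, Finset.card_univ, ← Nat.card_eq_fintype_card,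
      natCard_algHom, D.finrank_quot hd₁ hd₂]
  · intro s hs t ht h
    obtain ⟨χ, -, rfl⟩ := Finset.mem_image.mp (Finset.mem_coe.mp hs)
    obtain ⟨χ', -, rfl⟩ := Finset.mem_image.mp (Finset.mem_coe.mp ht)
    rw [hinj₁ h]
  · intro s hs t ht h
    obtain ⟨χ, -, rfl⟩ := Finset.mem_image.mp (Finset.mem_coe.mp hs)
    obtain ⟨χ', -, rfl⟩ := Finset.mem_image.mp (Finset.mem_coe.mp ht)
    rw [hinj₂ h]
  · intro s hs
    obtain ⟨χ, -, rfl⟩ := Finset.mem_image.mp hs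
    exact ⟨hP₁x χ, hP₂x χ⟩
  · intro s hs v hv
    obtain ⟨χ, -, rfl⟩ := Finset.mem_image.mp hs
    exact ⟨_, hglue χ v hv⟩
  · intro n hn w hw hwS
    obtain ⟨a, b⟩ := w
    have hw' := mem_WW.mp hw
    apply hn₀ n hn _ _ hw
    obtain ⟨m, b', hb'⟩ := D.surj₁ a (mem_regAlg_of_mem hw'.1)
    have hB' : (a, b') ∈ D.B := ⟨m, hb'⟩
    have hbr : b ∈ regAlg k x₂ := mem_regAlg_of_mem hw'.2
    have hbr' : b' ∈ regAlg k x₂ := D.snd_mem hB'
    have h0 : (⟨b, hbr⟩ - ⟨b', hbr'⟩ : regAlg k x₂) ∈ D.I₂ := by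
      rw [← Ideal.Quotient.eq_zero_iff_mem]
      apply eq_zero_of_forall_algHom (k := k)
      intro χ
      show res χ (⟨b, hbr⟩ - ⟨b', hbr'⟩) = 0
      rw [map_sub, sub_eq_zero]
      obtain ⟨c, hc₁, hc₂⟩ := hwS (P₁ χ, P₂ χ) (Finset.mem_image_of_mem _ (Finset.mem_univ χ))
      have h1 := (hglue χ (a, b') hB').1
      have h2 : c = res χ ⟨b', hbr'⟩ := hc₁.unique h1
      have h3 : c = res χ ⟨b, hbr⟩ := hc₂.unique (hP₂ χ ⟨b, hbr⟩)
      rw [← h2, ← h3]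
    rw [mem_I₂] at h0
    have h1 := D.B.add_mem hB' h0
    have e : ((a, b') : F₁ × F₂) + (0, ((⟨b, hbr⟩ - ⟨b', hbr'⟩ : regAlg k x₂) : F₂)) = (a, b) := by
      ext
      · simp
      · simp
    rwa [e] at h1

end Main

end NodeDatum

end Fermat.Agent.DR.Nodes
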