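import Fermat.Agent.DR.Nodal.Datum
import Fermat.Agent.DR.PairDegree
import Fermat.Agent.JRED.DescentApprox

set_option autoImplicit false

/-!
# Pole bounds for the pair of reductions (piece A1)

If `h` has its poles among the poles of `x` (with multiplicity `≤ n`), so do its two reductions.
-/

noncomputable section

open AlgebraicCurve Fermat.Agent.RR Fermat.Agent.JRED WithZero IntermediateField
open Fermat.Agent.JRED.Descent (finiteDimensional_of_transcendental)

namespace Fermat.Agent.DR.Nodes

section Local

variable {k F : Type*} [Field k] [Field F] [Algebra k F]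

/-- Two functions combine generically. -/
theorem subsingleton_bad (v : Place k F) (u y : F) :
    {c : k | c ≠ 0 ∧ v.adicValuation (u + algebraMap k F c * y) <
      max (v.adicValuation u) (v.adicValuation y)}.Subsingleton := by
  rintro c ⟨hc, hb⟩ c' ⟨hc', hb'⟩
  by_contra hne
  have hlt : ∀ (a b : k), v.adicValuation (algebraMap k F a * (u + algebraMap k F c * y) +
      algebraMap k F b * (u + algebraMap k F c' * y)) <
      max (v.adicValuation u) (v.adicValuation y) := by
    intro a b
    refine lt_of_le_of_lt (Valuation.map_add _ _ _) (max_lt ?_ ?_)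
    · rw [map_mul]
      exact lt_of_le_of_lt (mul_le_of_le_one_left' (v.adicValuation_algebraMap_le_one a)) hb
    · rw [map_mul]
      exact lt_of_le_of_lt (mul_le_of_le_one_left' (v.adicValuation_algebraMap_le_one b)) hb'
  have hd : c - c' ≠ 0 := sub_ne_zero.mpr hne
  have h1 : v.adicValuation y < max (v.adicValuation u) (v.adicValuation y) := by
    have h := hlt (c - c')⁻¹ (-(c - c')⁻¹)
    have e : algebraMap k F (c - c')⁻¹ * (u + algebraMap k F c * y) +
      algebraMap k F (-(c - c')⁻¹) * (u + algebraMap k F c' * y) = y := by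
      have h2 : algebraMap k F (c - c')⁻¹ * (algebraMap k F c - algebraMap k F c') = 1 := by
        rw [← map_sub, ← map_mul, inv_mul_cancel₀ hd, map_one]
      rw [map_neg]
      linear_combination y * h2
    rwa [e] at h
  have h2 : v.adicValuation u < max (v.adicValuation u) (v.adicValuation y) := by
    have h := hlt (-c' * (c - c')⁻¹) (c * (c - c')⁻¹)
    have e : algebraMap k F (-c' * (c - c')⁻¹) * (u + algebraMap k F c * y) +
      algebraMap k F (c * (c - c')⁻¹) * (u + algebraMap k F c' * y) = u := by
      have h2 : algebraMap k F (c - c')⁻¹ * (algebraMap k F c - algebraMap k F c') = 1 := by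
        rw [← map_sub, ← map_mul, inv_mul_cancel₀ hd, map_one]
      simp only [map_mul, map_neg]
      linear_combination u * h2
    rwa [e] at h
  rcases max_choice (v.adicValuation u) (v.adicValuation y) with h | h
  · rw [h] at h2; exact lt_irrefl _ h2
  · rw [h] at h1; exact lt_irrefl _ h1

theorem exp_polesOf [HasPrincipalDivisors k F] (v : Place k F) (f : F) :
    exp (polesOf f v) = max (v.adicValuation f) 1 := by
  rw [polesOf_apply]
  rcases eq_or_ne f 0 with rfl | hf
  · simp
  · rw [v.adicValuation_eq_exp_neg_ord hf]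
    rcases le_total (-v.ord f) 0 with h | h
    · rw [max_eq_right h, max_eq_right]
      · simp
      · rw [← exp_zero, exp_le_exp]; exact h
    · rw [max_eq_left h, max_eq_left]
      rw [← exp_zero, exp_le_exp]; exact h

theorem mem_riemannRochSpace_iff_val {D : Divisor k F} {f : F} :
    f ∈ riemannRochSpace D ↔ ∀ v : Place k F, v.adicValuation f ≤ exp (D v) := by
  rw [mem_riemannRochSpace_iff]
  exact forall_congr' fun v => (v.adicValuation_le_exp_iff).symm

theorem mem_riemannRochSpace_nsmul_iff_val [HasPrincipalDivisors k F] {x f : F} {n : ℕ} :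
    f ∈ riemannRochSpace (n • polesOf (K := k) x) ↔
      ∀ v : Place k F, v.adicValuation f ≤ max (v.adicValuation x) 1 ^ n := by
  rw [mem_riemannRochSpace_iff_val]
  refine forall_congr' fun v => ?_
  rw [← exp_polesOf, Finsupp.smul_apply, exp_nsmul]

/-- For all but finitely many constants `c`, the poles of `u + c y ^ n` are the union of the poles
of `u` and of `y ^ n`. -/
theorem finite_bad [HasPrincipalDivisors k F] (u y : F) (n : ℕ) :
    {c : k | c ≠ 0 ∧ ¬ ∀ v : Place k F, max (max (v.adicValuation u) (v.adicValuation y ^ n)) 1 ≤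
      max (v.adicValuation (u + algebraMap k F c * y ^ n)) 1}.Finite := by
  classical
  let S : Finset (Place k F) := (polesOf (K := k) u).support ∪ (polesOf (K := k) y).support
  refine Set.Finite.subset (Set.Finite.biUnion (s := (S : Set (Place k F))) S.finite_toSet
    (t := fun v => {c : k | c ≠ 0 ∧ v.adicValuation (u + algebraMap k F c * y ^ n) <
      max (v.adicValuation u) (v.adicValuation (y ^ n))})
    (fun v _ => (subsingleton_bad v u (y ^ n)).finite)) ?_
  rintro c ⟨hc, hbad⟩
  push Not at hbad
  obtain ⟨v, hv⟩ := hbad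
  rw [Set.mem_iUnion₂]
  refine ⟨v, ?_, hc, ?_⟩
  · by_contra hvS
    have hvS' : v ∉ S := hvS
    rw [Finset.mem_union, not_or, Finsupp.notMem_support_iff, Finsupp.notMem_support_iff] at hvS'
    have h1 := exp_polesOf (k := k) v u
    have h2 := exp_polesOf (k := k) v y
    rw [hvS'.1, exp_zero] at h1
    rw [hvS'.2, exp_zero] at h2
    have h3 : v.adicValuation u ≤ 1 := h1 ▸ le_max_left _ _
    have h4 : v.adicValuation y ≤ 1 := h2 ▸ le_max_left _ _
    have h5 : max (max (v.adicValuation u) (v.adicValuation y ^ n)) 1 = 1 :=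
      max_eq_right (max_le h3 (pow_le_one' h4 n))
    rw [h5] at hv
    exact absurd (le_max_right _ _) (not_le.mpr hv)
  · rw [map_pow]
    by_contra hge
    push Not at hge
    exact absurd (max_le_max_right 1 hge) (not_le.mpr hv)

theorem le_polesOf_of_good [HasPrincipalDivisors k F] {u y : F} {n : ℕ} {c : k}
    (h : ∀ v : Place k F, max (max (v.adicValuation u) (v.adicValuation y ^ n)) 1 ≤
      max (v.adicValuation (u + algebraMap k F c * y ^ n)) 1) :
    n • polesOf (K := k) y ≤ polesOf (u + algebraMap k F c * y ^ n) ∧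
    polesOf (K := k) u ≤ polesOf (u + algebraMap k F c * y ^ n) := by
  constructor
  · intro v
    rw [← exp_le_exp, Finsupp.smul_apply, exp_nsmul, exp_polesOf, exp_polesOf]
    refine le_trans ?_ (h v)
    rcases le_total (v.adicValuation y) 1 with h1 | h1
    · rw [max_eq_right h1, one_pow]; exact le_max_right _ _
    · rw [max_eq_left h1]; exact (le_max_right _ _).trans (le_max_left _ _)
  · intro v
    rw [← exp_le_exp, exp_polesOf, exp_polesOf]
    exact le_trans (max_le_max_right 1 (le_max_left _ _)) (h v)

end Local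

section Trans

variable {K F : Type*} [Field K] [Field F] [Algebra K F]

theorem isConst_of_not_transcendental [IsAlgClosed K] {x : F} (hx : ¬ Transcendental K x) :
    ∃ c : K, x = algebraMap K F c := by
  rw [Transcendental, not_not] at hx
  have h1 : IsIntegral K x := hx.isIntegral
  have h2 := IsAlgClosed.degree_eq_one_of_irreducible K (minpoly.irreducible h1)
  obtain ⟨c, rfl⟩ := minpoly.mem_range_of_degree_eq_one K x h2
  exact ⟨c, rfl⟩

theorem polesOf_algebraMap [HasPrincipalDivisors K F] (c : K) :
    polesOf (K := K) (algebraMap K F c) = 0 := by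
  ext v
  simp [ord_algebraMap]

theorem transcendental_of_degree_pos [IsAlgClosed K] [HasPrincipalDivisors K F] {x : F}
    (h : 0 < Divisor.degree (polesOf (K := K) x)) : Transcendental K x := by
  by_contra hx
  obtain ⟨c, rfl⟩ := isConst_of_not_transcendental hx
  rw [polesOf_algebraMap, map_zero] at h
  exact lt_irrefl _ h

theorem degree_polesOf_pos [IsAlgClosed K] [FunctionField K F] {x : F} (hx : Transcendental K x) :
    0 < Divisor.degree (polesOf (K := K) x) := by
  have h := finiteDimensional_of_transcendental hx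
  rw [degree_polesOf hx]
  exact_mod_cast Module.finrank_pos

end Trans

section Main

variable {K F k F₁ F₂ : Type*} [Field K] [Field F] [Algebra K F] [Field k] [Field F₁] [Field F₂]
  [Algebra k F₁] [Algebra k F₂] [IsAlgClosed K] [IsAlgClosed k] [FunctionField K F]
  [FunctionField k F₁] [FunctionField k F₂] {A : ValuationSubring K} {π : A →+* k}
  {R₁ : RedDatum K F k F₁ A π} {R₂ : RedDatum K F k F₂ A π}

/-- The pair degree inequality. -/
def PairDegreeLe (R₁ : RedDatum K F k F₁ A π) (R₂ : RedDatum K F k F₂ A π) : Prop :=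
  ∀ (w : F) (u : F₁ × F₂), Red₂ R₁ R₂ w u → Transcendental k u.1 → Transcendental k u.2 →
    Divisor.degree (polesOf (K := k) u.1) + Divisor.degree (polesOf (K := k) u.2) ≤
      Divisor.degree (polesOf (K := K) w)

open Fermat.Agent.DR.PairDegree in
theorem pairDegreeLe_of_separated (hπ : Function.Surjective π) (hsep : Separated R₁ R₂)
    (hs1 : ∀ u : F₁, ∃ w, R₁.Red w u) (hs2 : ∀ u : F₂, ∃ w, R₂.Red w u) :
    PairDegreeLe R₁ R₂ := by
  intro w u hw h1 h2
  have htr : Transcendental K w := RedDatum.transcendental_of_red hπ hw.1 h1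
  have hf := finiteDimensional_of_transcendental htr
  have hf1 := finiteDimensional_of_transcendental h1
  have hf2 := finiteDimensional_of_transcendental h2
  rw [degree_polesOf htr, degree_polesOf h1, degree_polesOf h2]
  have hsq : ∀ c : K, ∃ s : K, s * s = c := by
    intro c
    obtain ⟨s, hs⟩ := IsAlgClosed.exists_pow_nat_eq c (n := 2) (by norm_num)
    exact ⟨s, by rw [← hs, sq]⟩
  have h := card_add_card_le hπ hsq hsep hw.1 hw.2
    (fun i => hs1 (Module.finBasis k⟮u.1⟯ F₁ i)) (fun i => hs2 (Module.finBasis k⟮u.2⟯ F₂ i))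
    (indepPow_of h1 (Module.finBasis k⟮u.1⟯ F₁).linearIndependent)
    (indepPow_of h2 (Module.finBasis k⟮u.2⟯ F₂).linearIndependent)
  rw [Fintype.card_fin, Fintype.card_fin] at h
  exact_mod_cast h

/-- **Pole bounds (A1).** -/
theorem mem_of_red₂ (hπ : Function.Surjective π) (hpd : PairDegreeLe R₁ R₂) {x : F} {x₁ : F₁}
    {x₂ : F₂} (red₁ : R₁.Red x x₁) (red₂ : R₂.Red x x₂) (tr₁ : Transcendental k x₁)
    (tr₂ : Transcendental k x₂)
    (hdeg : Divisor.degree (polesOf (K := K) x) =
      Divisor.degree (polesOf (K := k) x₁) + Divisor.degree (polesOf (K := k) x₂))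
    {n : ℕ} {h : F} {u : F₁ × F₂} (hh : h ∈ riemannRochSpace (n • polesOf (K := K) x))
    (hu : Red₂ R₁ R₂ h u) :
    u.1 ∈ riemannRochSpace (n • polesOf (K := k) x₁) ∧
      u.2 ∈ riemannRochSpace (n • polesOf (K := k) x₂) := by
  rcases Nat.eq_zero_or_pos n with rfl | hn
  · -- constants
    rw [zero_smul, riemannRochSpace_zero, Submodule.mem_span_singleton] at hh
    obtain ⟨c, rfl⟩ := hh
    rw [← Algebra.algebraMap_eq_smul_one] at hu
    have hc := RedDatum.mem_of_red_const hπ hu.1
    have e1 := R₁.unique hu.1 (R₁.const ⟨c, hc⟩)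
    have e2 := R₂.unique hu.2 (R₂.const ⟨c, hc⟩)
    rw [e1, e2, zero_smul, zero_smul, riemannRochSpace_zero, riemannRochSpace_zero,
      Submodule.mem_span_singleton, Submodule.mem_span_singleton]
    exact ⟨⟨_, (Algebra.algebraMap_eq_smul_one _).symm⟩, ⟨_, (Algebra.algebraMap_eq_smul_one _).symm⟩⟩
  -- a good constant
  have hinf : Infinite k := IsAlgClosed.instInfinite
  obtain ⟨c, hc⟩ := (((finite_bad (k := k) u.1 x₁ n).union
    (finite_bad (k := k) u.2 x₂ n)).union (Set.finite_singleton 0)).exists_notMem
  simp only [Set.mem_union, Set.mem_ofPred_eq, Set.mem_singleton_iff, not_or, not_and,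
    not_not] at hc
  obtain ⟨⟨hc1, hc2⟩, hc0⟩ := hc
  have hg1 := le_polesOf_of_good (hc1 hc0)
  have hg2 := le_polesOf_of_good (hc2 hc0)
  obtain ⟨a, ha⟩ := hπ c
  have hw : Red₂ R₁ R₂ (h + algebraMap K F a * x ^ n)
      (u.1 + algebraMap k F₁ c * x₁ ^ n, u.2 + algebraMap k F₂ c * x₂ ^ n) := by
    rw [← ha]
    exact ⟨R₁.add hu.1 (R₁.mul (R₁.const a) (RedDatum.pow red₁ n)),
      R₂.add hu.2 (R₂.mul (R₂.const a) (RedDatum.pow red₂ n))⟩
  have hd1 := degree_mono hg1.1
  have hd2 := degree_mono hg2.1
  rw [map_nsmul, nsmul_eq_mul] at hd1 hd2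
  have hn' : (0 : ℤ) < n := by exact_mod_cast hn
  have ht1 : Transcendental k (u.1 + algebraMap k F₁ c * x₁ ^ n) :=
    transcendental_of_degree_pos (lt_of_lt_of_le (mul_pos hn' (degree_polesOf_pos tr₁)) hd1)
  have ht2 : Transcendental k (u.2 + algebraMap k F₂ c * x₂ ^ n) :=
    transcendental_of_degree_pos (lt_of_lt_of_le (mul_pos hn' (degree_polesOf_pos tr₂)) hd2)
  have hle := hpd _ _ hw ht1 ht2
  -- upper bound
  have hup : polesOf (K := K) (h + algebraMap K F a * x ^ n) ≤ n • polesOf (K := K) x := by
    intro v
    rw [← exp_le_exp, Finsupp.smul_apply, exp_nsmul, exp_polesOf, exp_polesOf]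
    have h1 := mem_riemannRochSpace_nsmul_iff_val.mp hh v
    have h2 : v.adicValuation (algebraMap K F (a : K) * x ^ n) ≤ max (v.adicValuation x) 1 ^ n := by
      rw [map_mul, map_pow]
      exact (mul_le_of_le_one_left' (v.adicValuation_algebraMap_le_one (a : K))).trans
        (pow_le_pow_left' (le_max_left _ _) n)
    exact max_le ((Valuation.map_add _ _ _).trans (max_le h1 h2))
      (one_le_pow_of_one_le' (le_max_right _ _) n)
  have hup' := degree_mono hup
  rw [map_nsmul, nsmul_eq_mul, hdeg] at hup'
  -- strictness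
  constructor
  · by_contra hnot
    rw [mem_riemannRochSpace_iff_val] at hnot
    push Not at hnot
    obtain ⟨v, hv⟩ := hnot
    have hstrict : n • polesOf (K := k) x₁ + Finsupp.single v 1 ≤
        polesOf (u.1 + algebraMap k F₁ c * x₁ ^ n) := by
      classical
      intro w
      rw [Finsupp.add_apply]
      by_cases hwv : w = v
      · subst hwv
        rw [Finsupp.single_eq_same]
        have h1 := hg1.2 w
        have h2 : (n • polesOf (K := k) x₁) w < polesOf (K := k) u.1 w := by
          rw [← exp_lt_exp, exp_polesOf]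
          exact lt_of_lt_of_le hv (le_max_left _ _)
        linarith
      · rw [Finsupp.single_eq_of_ne hwv, add_zero]
        exact hg1.1 w
    have hd1' := degree_mono hstrict
    rw [map_add, degree_single_one, map_nsmul, nsmul_eq_mul] at hd1'
    simp only at hle
    linarith
  · by_contra hnot
    rw [mem_riemannRochSpace_iff_val] at hnot
    push Not at hnot
    obtain ⟨v, hv⟩ := hnot
    have hstrict : n • polesOf (K := k) x₂ + Finsupp.single v 1 ≤
        polesOf (u.2 + algebraMap k F₂ c * x₂ ^ n) := by
      classical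
      intro w
      rw [Finsupp.add_apply]
      by_cases hwv : w = v
      · subst hwv
        rw [Finsupp.single_eq_same]
        have h1 := hg2.2 w
        have h2 : (n • polesOf (K := k) x₂) w < polesOf (K := k) u.2 w := by
          rw [← exp_lt_exp, exp_polesOf]
          exact lt_of_lt_of_le hv (le_max_left _ _)
        linarith
      · rw [Finsupp.single_eq_of_ne hwv, add_zero]
        exact hg2.1 w
    have hd2' := degree_mono hstrict
    rw [map_add, degree_single_one, map_nsmul, nsmul_eq_mul] at hd2'
    simp only at hle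
    linarith

end Main

end Fermat.Agent.DR.Nodes
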